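import Fermat.Agent.DR.Abs.Nodal.Defs

/-!
# DR/Abs/Nodal, leaf SA: strong approximation and interpolation
-/

set_option autoImplicit false

noncomputable section

namespace Fermat.Agent.DR.Nodal

open AlgebraicCurve Fermat.Agent.Lib.RR Fermat.Agent.Lib.PlaceEval Fermat.Agent.GAL.RED

variable {k Fb : Type*} [Field k] [Field Fb] [Algebra k Fb] [IsFF k Fb] [IsAlgClosed k]

/-- **Strong approximation.**  `P₀ ∈ Z`, `D := N • pt P₀ - ∑_{P ∈ T} e • pt P` with `N` so large that
`h1 D = 0` (`Lib.RR.exists_h1_eq_zero`); apply `GAL.FF.RH...exists_sub_mem_of_h1_eq_zero`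
(file `GAL/FF/RH/Approx.lean`; compare the proof of `exists_weak_approx` there) to the repartition
`α = f` on `T`, `0` elsewhere (`mem_repartitions_iff`).
(The hypothesis `hf` is necessary: `y` has to be regular at the points of `T`.) -/
theorem exists_strong_approx (Z : Set (Place k Fb)) (hZ : Z.Nonempty) (T : Finset (Place k Fb))
    (hT : ∀ P ∈ T, P ∉ Z) (f : Place k Fb → Fb) (hf : ∀ P ∈ T, 0 ≤ P.ord (f P)) (e : ℤ) :
    ∃ y ∈ regOut Z, ∀ P ∈ T, y = f P ∨ e ≤ P.ord (y - f P) := by
  classical
  obtain ⟨u, hu⟩ := hZ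
  have huT : u ∉ T := fun h => hT u h hu
  obtain ⟨c, hc⟩ := exists_h1_eq_zero (K := k) (F := Fb)
  set e' : ℤ := max e 0 with he'
  let D : Divisor k Fb := (∑ w ∈ T, Finsupp.single w (-e')) + Finsupp.single u (c + ∑ w ∈ T, e')
  have hdeg : Divisor.degree D = c := by
    simp only [D, map_add, map_sum, Divisor.degree_single, deg_eq_one,
      Nat.cast_one, mul_one, Finset.sum_neg_distrib]
    ring
  have hD : ∀ w ∈ T, D w = -e' := by
    intro w hw
    have hwu : u ≠ w := fun h => huT (h ▸ hw)
    simp only [D, Finsupp.add_apply, Finsupp.finsetSum_apply, Finsupp.single_apply, if_neg hwu,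
      add_zero, Finset.sum_ite_eq', if_pos hw]
  have hD0 : ∀ w, w ∉ T → w ≠ u → D w = 0 := by
    intro w hw hwu
    simp only [D, Finsupp.add_apply, Finsupp.finsetSum_apply, Finsupp.single_apply,
      if_neg (Ne.symm hwu), add_zero, Finset.sum_ite_eq', if_neg hw]
  have hmem : (fun w => if w ∈ T then f w else 0) ∈ repartitions k Fb := by
    apply mem_repartitions_of_finite_ord
    refine T.finite_toSet.subset fun w hw => ?_
    by_contra hcon
    have hcon' : w ∉ T := hcon
    have hw' : w.ord (if w ∈ T then f w else 0) < 0 := hw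
    rw [if_neg hcon', Place.ord_zero] at hw'
    exact lt_irrefl _ hw'
  obtain ⟨z, hz⟩ := Fermat.Agent.GAL.FF.exists_sub_mem_of_h1_eq_zero (hc D hdeg.ge) ⟨_, hmem⟩
  have key : ∀ w ∈ T, z = f w ∨ e' ≤ w.ord (z - f w) := by
    intro w hw
    have := hz w
    simp only [if_pos hw, hD w hw, neg_neg] at this
    rcases this with h | h
    · exact Or.inl h.symm
    · right
      rwa [← ord_neg, neg_sub]
  refine ⟨z, ?_, fun w hw => ?_⟩
  · rw [mem_regOut]
    intro w hwZ
    by_cases hw : w ∈ T
    · rcases key w hw with h | h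
      · rw [h]
        exact (mem_iff w).2 (hf w hw)
      · have h1 : z = (z - f w) + f w := by ring
        rw [h1]
        exact add_mem ((mem_iff w).2 (le_trans (le_max_right e 0) h)) ((mem_iff w).2 (hf w hw))
    · have hwu : w ≠ u := fun h => hwZ (h ▸ hu)
      have := hz w
      simp only [if_neg hw, hD0 w hw hwu, neg_zero, zero_sub, ord_neg] at this
      rcases this with h | h
      · rw [← h]
        exact zero_mem _
      · exact (mem_iff w).2 h
  · rcases key w hw with h | h
    · exact Or.inl h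
    · exact Or.inr (le_trans (le_max_left e 0) h)

/-- interpolation of values (`f P := algebraMap (c P)`, `e = 1`, `ev_eq_iff`). -/
theorem exists_interp (Z : Set (Place k Fb)) (hZ : Z.Nonempty) (T : Finset (Place k Fb))
    (hT : ∀ P ∈ T, P ∉ Z) (c : Place k Fb → k) :
    ∃ y ∈ regOut Z, ∀ P ∈ T, ev P y = c P := by
  obtain ⟨y, hy, h⟩ := exists_strong_approx Z hZ T hT (fun P => algebraMap k Fb (c P))
    (fun P _ => (ord_algebraMap P _).ge) 1
  refine ⟨y, hy, fun P hP => ?_⟩
  rw [ev_eq_iff P ((mem_iff P).1 (hy P (hT P hP)))]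
  rcases h P hP with h1 | h1
  · exact Or.inl h1
  · exact Or.inr (by omega)

/-- a uniformiser at `P` which is regular outside `Z` (`f P :=` any uniformiser, `e = 2`). -/
theorem exists_unif (Z : Set (Place k Fb)) (hZ : Z.Nonempty) (P : Place k Fb) (hP : P ∉ Z) :
    ∃ v ∈ regOut Z, P.ord v = 1 := by
  classical
  obtain ⟨π, hπ⟩ := IsDiscreteValuationRing.exists_irreducible P.toValuationSubring
  have hπ1 : P.ord (π : Fb) = 1 := P.ord_coe_irreducible hπ
  have hπ0 : (π : Fb) ≠ 0 := by
    intro h0
    rw [h0, Place.ord_zero] at hπ1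
    exact zero_ne_one hπ1
  obtain ⟨y, hy, h⟩ := exists_strong_approx Z hZ {P}
    (fun Q hQ => by rw [Finset.mem_singleton.1 hQ]; exact hP) (fun _ => (π : Fb))
    (fun Q hQ => by rw [Finset.mem_singleton.1 hQ, hπ1]; exact zero_le_one) 2
  refine ⟨y, hy, ?_⟩
  rcases h P (Finset.mem_singleton_self P) with h1 | h1
  · rw [h1, hπ1]
  · have h2 : y = (π : Fb) + (y - π) := by ring
    have h3 : y - (π : Fb) ≠ 0 := by
      intro h0
      rw [h0, Place.ord_zero] at h1
      omega
    rw [h2, ord_add_eq_of_lt P hπ0 h3 (by omega), hπ1]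

/-- `b` is a unit at `P` and vanishes to order `≥ e` at the other points of `T`. -/
theorem exists_bump (Z : Set (Place k Fb)) (hZ : Z.Nonempty) (T : Finset (Place k Fb))
    (hT : ∀ P ∈ T, P ∉ Z) (P : Place k Fb) (hP : P ∈ T) (e : ℤ) :
    ∃ b ∈ regOut Z, b ≠ 0 ∧ P.ord b = 0 ∧ ∀ Q ∈ T, Q ≠ P → e ≤ Q.ord b := by
  classical
  obtain ⟨y, hy, h⟩ := exists_strong_approx Z hZ T hT (fun Q => if Q = P then 1 else 0)
    (fun Q _ => by
      by_cases hQ : Q = P
      · rw [if_pos hQ, Place.ord_one]
      · rw [if_neg hQ, Place.ord_zero]) (max e 1)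
  have hP1 := h P hP
  rw [if_pos rfl] at hP1
  have hord : P.ord y = 0 := by
    rcases hP1 with h1 | h1
    · rw [h1, Place.ord_one]
    · have h2 : y = 1 + (y - 1) := by ring
      have h4 : 1 ≤ P.ord (y - 1) := le_trans (le_max_right e 1) h1
      have h3 : y - 1 ≠ 0 := by
        intro h0
        rw [h0, Place.ord_zero] at h4
        omega
      rw [h2, ord_add_eq_of_lt P one_ne_zero h3 (by rw [Place.ord_one]; omega), Place.ord_one]
  have hy0 : y ≠ 0 := by
    intro h0
    rcases hP1 with h1 | h1
    · rw [h0] at h1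
      exact zero_ne_one h1
    · have h4 : 1 ≤ P.ord (y - 1) := le_trans (le_max_right e 1) h1
      rw [h0, zero_sub, ord_neg, Place.ord_one] at h4
      omega
  refine ⟨y, hy, hy0, hord, fun Q hQ hQP => ?_⟩
  have hQ1 := h Q hQ
  rw [if_neg hQP, sub_zero] at hQ1
  rcases hQ1 with h1 | h1
  · exact absurd h1 hy0
  · exact le_trans (le_max_left e 1) h1

/-- **Interpolation in `L(D)`**: the evaluation map `L(D) → k^T` has kernel `L(D - ∑_{P ∈ T} pt P)`,
of codimension `#T` by Riemann-Roch (`ell_eq_of_lt_degree'`), so it is onto. -/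
theorem exists_mem_L_ev (D : Divisor k Fb) (T : Finset (Place k Fb)) (hD : ∀ P ∈ T, D P = 0)
    (hdeg : 2 * (genusFF k Fb : ℤ) - 2 + T.card < Divisor.degree D) (c : Place k Fb → k) :
    ∃ u ∈ riemannRochSpace D, ∀ P ∈ T, ev P u = c P := by
  classical
  have hreg : ∀ u ∈ riemannRochSpace D, ∀ P ∈ T, 0 ≤ P.ord u := by
    intro u hu P hP
    rcases mem_riemannRochSpace_iff.1 hu P with h | h
    · rw [h, Place.ord_zero]
    · rwa [hD P hP, neg_zero] at h
  let φ : riemannRochSpace D →ₗ[k] (T → k) :=
    { toFun := fun u P => ev P.1 (u : Fb)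
      map_add' := fun u v => by
        funext P
        exact ev_add P.1 (hreg u u.2 P.1 P.2) (hreg v v.2 P.1 P.2)
      map_smul' := fun a u => by
        funext P
        exact ev_smul P.1 a u }
  set D' : Divisor k Fb := D - ∑ P ∈ T, pt P with hD'
  have hD'T : ∀ P ∈ T, D' P = -1 := by
    intro P hP
    simp only [hD', Finsupp.sub_apply, Finsupp.finsetSum_apply, Finsupp.single_apply,
      Finset.sum_ite_eq', if_pos hP, hD P hP, zero_sub]
  have hD'N : ∀ P, P ∉ T → D' P = D P := by
    intro P hP
    simp only [hD', Finsupp.sub_apply, Finsupp.finsetSum_apply, Finsupp.single_apply,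
      Finset.sum_ite_eq', if_neg hP, sub_zero]
  have hle : riemannRochSpace D' ≤ riemannRochSpace D := by
    apply L_mono
    intro P
    by_cases hP : P ∈ T
    · rw [hD'T P hP, hD P hP]
      omega
    · rw [hD'N P hP]
  have hker : LinearMap.ker φ = (riemannRochSpace D').comap (riemannRochSpace D).subtype := by
    ext u
    rw [LinearMap.mem_ker, Submodule.mem_comap, Submodule.subtype_apply,
      mem_riemannRochSpace_iff]
    constructor
    · intro h P
      by_cases hP : P ∈ T
      · have h1 : ev P (u : Fb) = 0 := congrFun h ⟨P, hP⟩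
        rcases (ev_eq_zero_iff P (hreg u u.2 P hP)).1 h1 with h2 | h2
        · exact Or.inl h2
        · right
          rw [hD'T P hP]
          omega
      · rw [hD'N P hP]
        exact mem_riemannRochSpace_iff.1 u.2 P
    · intro h
      funext P
      show ev P.1 (u : Fb) = 0
      rw [ev_eq_zero_iff P.1 (hreg u u.2 P.1 P.2)]
      rcases h P.1 with h2 | h2
      · exact Or.inl h2
      · right
        rw [hD'T P.1 P.2] at h2
        omega
  have hdegD' : Divisor.degree D' = Divisor.degree D - T.card := by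
    simp only [hD', map_sub, map_sum, degree_pt, deg_eq_one]
    simp
  have hell : (ell D : ℤ) = Divisor.degree D + 1 - genusFF k Fb :=
    ell_eq_of_lt_degree' (by
      have : (0 : ℤ) ≤ T.card := Int.natCast_nonneg _
      omega)
  have hell' : (ell D' : ℤ) = Divisor.degree D' + 1 - genusFF k Fb :=
    ell_eq_of_lt_degree' (by rw [hdegD']; omega)
  have hkerdim : Module.finrank k (LinearMap.ker φ) = ell D' := by
    rw [hker]
    exact (Submodule.comapSubtypeEquivOfLe hle).finrank_eq
  have hrn := LinearMap.finrank_range_add_finrank_ker φ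
  have hrange : Module.finrank k (LinearMap.range φ) = T.card := by
    have h1 : (Module.finrank k (LinearMap.range φ) : ℤ) + ell D' = ell D := by
      rw [← hkerdim]
      exact_mod_cast hrn
    have : (Module.finrank k (LinearMap.range φ) : ℤ) = T.card := by
      rw [hell, hell', hdegD'] at h1
      omega
    exact_mod_cast this
  have htop : LinearMap.range φ = ⊤ := by
    apply Submodule.eq_top_of_finrank_eq
    rw [hrange, Module.finrank_fintype_fun_eq_card, Fintype.card_coe]
  have hc : (fun P : T => c P.1) ∈ LinearMap.range φ := by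
    rw [htop]
    exact Submodule.mem_top
  obtain ⟨u, hu⟩ := hc
  exact ⟨u, u.2, fun P hP => congrFun hu ⟨P, hP⟩⟩

end Fermat.Agent.DR.Nodal
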