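import Fermat.Agent.DR.Abs.Nodal.Main

/-!
# DR/Abs/Nodal: the structure theorem for twisted sections (residual part of step (4)),
consequences used by the lifting step (5) and by DR/Gal
-/

set_option autoImplicit false

noncomputable section

namespace Fermat.Agent.DR.Nodal

open AlgebraicCurve Fermat.Agent.Lib.RR Fermat.Agent.Lib.PlaceEval Fermat.Agent.GAL.RED

variable {k Fb : Type*} [Field k] [Field Fb] [Algebra k Fb] [IsFF k Fb] [IsAlgClosed k]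
variable {X : Frob k Fb} {σ : Fb} (𝓗 : Filt X σ)

/-- A subspace of `k²` contained in the union of the lines `x ^ m = y ^ m` is contained in one line
`x = δ y`, `δ ^ m = 1`.  (If `W = 0` take `δ = 1`.  Otherwise `(x₀, y₀) ∈ W` nonzero, then `y₀ ≠ 0`,
`δ := x₀ / y₀`; for `(x, y) ∈ W`: `(x, y) - (y / y₀) (x₀, y₀) = (x - δ y, 0) ∈ W`, so
`(x - δ y) ^ m = 0`.)  Mathlib only. -/
theorem exists_line {k : Type*} [Field k] (m : ℕ) (hm : 0 < m) (W : Submodule k (k × k))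
    (hW : ∀ w ∈ W, w.1 ^ m = w.2 ^ m) : ∃ δ : k, δ ^ m = 1 ∧ ∀ w ∈ W, w.1 = δ * w.2 := by
  by_cases h : ∀ w ∈ W, w.2 = 0
  · refine ⟨1, one_pow _, fun w hw => ?_⟩
    have h1 := hW w hw
    rw [h w hw, zero_pow hm.ne'] at h1
    rw [h w hw, mul_zero]
    exact (pow_eq_zero_iff hm.ne').1 h1
  · push Not at h
    obtain ⟨w₀, hw₀, hy₀⟩ := h
    refine ⟨w₀.1 / w₀.2, by rw [div_pow, hW w₀ hw₀, div_self (pow_ne_zero _ hy₀)],
      fun w hw => ?_⟩
    have h1 := hW _ (W.sub_mem hw (W.smul_mem (w.2 / w₀.2) hw₀))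
    simp only [Prod.fst_sub, Prod.snd_sub, Prod.smul_fst, Prod.smul_snd, smul_eq_mul,
      div_mul_cancel₀ _ hy₀, sub_self, zero_pow hm.ne'] at h1
    have h2 := sub_eq_zero.1 ((pow_eq_zero_iff hm.ne').1 h1)
    rw [h2]
    ring

/-- elements of `L(a (σ)_∞)` are regular at the nodes and at their images. -/
theorem Filt.twist_reg_of_mem_L {a : ℕ} {u : Fb}
    (hu : u ∈ riemannRochSpace (a • Dinf (k := k) σ)) {P : Place k Fb} (hP : P ∈ 𝓗.nodes) :
    0 ≤ P.ord u ∧ 0 ≤ (X.Φ P).ord u := by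
  obtain ⟨h1, h2⟩ := 𝓗.Dinf_nodes a hP
  rw [mem_riemannRochSpace_iff] at hu
  constructor
  · rcases hu P with rfl | h
    · simp
    · rwa [h1, neg_zero] at h
  · rcases hu (X.Φ P) with rfl | h
    · simp
    · rwa [h2, neg_zero] at h

/-- one level: `M ⊆ L(a D) × L(a D)` with `z ^ m ∈ H (m a)` for all `z ∈ M` is contained in some
`Γ_δ(a)`.  For `P` a node, `W_P :=` image of `M` under the linear map
`z ↦ (z.1 (Φ P), z.2 (P))` (linear on `M` because the elements of `L(a D)` are regular at `P`, `Φ P`);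
`z ^ m` is glued at `P` (`H_le_Gam`), `ev_pow`; `exists_line`.  Outside the nodes put `δ = 1`. -/
theorem Filt.exists_le_Gam (m : ℕ) (hm : 0 < m) (a : ℕ) (M : Submodule k (Fb × Fb))
    (hMB : ∀ z ∈ M, z.1 ∈ riemannRochSpace (a • Dinf (k := k) σ) ∧
      z.2 ∈ riemannRochSpace (a • Dinf (k := k) σ))
    (hpow : ∀ z ∈ M, z ^ m ∈ 𝓗.H (m * a)) :
    ∃ δ : Place k Fb → k, (∀ P, δ P ^ m = 1) ∧ M ≤ Gam X 𝓗.nodes δ (a • Dinf (k := k) σ) := by
  classical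
  have key : ∀ P : Place k Fb, ∃ d : k, d ^ m = 1 ∧
      (P ∈ 𝓗.nodes → ∀ z ∈ M, ev (X.Φ P) z.1 = d * ev P z.2) := by
    intro P
    by_cases hP : P ∈ 𝓗.nodes
    · let f : M →ₗ[k] k × k :=
        { toFun := fun z => (ev (X.Φ P) z.1.1, ev P z.1.2)
          map_add' := by
            intro z w
            have hz := hMB z.1 z.2
            have hw := hMB w.1 w.2
            ext
            · exact ev_add _ (𝓗.twist_reg_of_mem_L hz.1 hP).2 (𝓗.twist_reg_of_mem_L hw.1 hP).2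
            · exact ev_add _ (𝓗.twist_reg_of_mem_L hz.2 hP).1 (𝓗.twist_reg_of_mem_L hw.2 hP).1
          map_smul' := by
            intro c z
            ext
            · exact ev_smul _ c _
            · exact ev_smul _ c _ }
      obtain ⟨d, hd, hd'⟩ := exists_line m hm (LinearMap.range f) (by
        rintro _ ⟨z, rfl⟩
        have hz := hMB z.1 z.2
        have h1 := ((𝓗.H_le_Gam (m * a) (hpow z.1 z.2)).2.2 P hP).2.2
        unfold Glue at h1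
        rw [Prod.pow_fst, Prod.pow_snd, ev_pow _ (𝓗.twist_reg_of_mem_L hz.1 hP).2,
          ev_pow _ (𝓗.twist_reg_of_mem_L hz.2 hP).1, Pi.one_apply, one_mul] at h1
        exact h1)
      exact ⟨d, hd, fun _ z hz => hd' _ ⟨⟨z, hz⟩, rfl⟩⟩
    · exact ⟨1, one_pow _, fun h => absurd h hP⟩
  choose δ hδ hδ' using key
  refine ⟨δ, hδ, fun z hz => ?_⟩
  have hz' := hMB z hz
  refine ⟨hz'.1, hz'.2, fun P hP => ⟨?_, ?_, hδ' P hP z hz⟩⟩
  · exact (mem_iff _).2 (𝓗.twist_reg_of_mem_L hz'.1 hP).2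
  · exact (mem_iff _).2 (𝓗.twist_reg_of_mem_L hz'.2 hP).1

/-- if `Γ_δ(a) ⊆ Γ_δ'(b)`, `a` large, then `δ = δ'` on the nodes (`exists_mem_Gam_ev` with `c = 1`). -/
theorem Filt.eq_of_Gam_le {δ δ' : Place k Fb → k} {a b : ℕ}
    (ha : 2 * (genusFF k Fb : ℤ) - 2 + 𝓗.nodes.ncard < Divisor.degree (a • Dinf (k := k) σ))
    (h : Gam X 𝓗.nodes δ (a • Dinf (k := k) σ) ≤ Gam X 𝓗.nodes δ' (b • Dinf (k := k) σ)) :
    ∀ P ∈ 𝓗.nodes, δ P = δ' P := by
  obtain ⟨z, hz, hz1⟩ := exists_mem_Gam_ev X 𝓗.nodes 𝓗.finite_nodes δ 𝓗.injOn_nodes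
    (a • Dinf (k := k) σ) (fun P hP => 𝓗.Dinf_nodes a hP) ha 1
  intro P hP
  have h1 := (hz.2.2 P hP).2.2
  have h2 := ((h hz).2.2 P hP).2.2
  unfold Glue at h1 h2
  rw [h1, hz1 P hP, Pi.one_apply, mul_one, mul_one] at h2
  exact h2

/-- `Γ_δ` only depends on `δ` on the nodes. -/
theorem Gam_congr {NN : Set (Place k Fb)} {δ δ' : Place k Fb → k} (h : ∀ P ∈ NN, δ P = δ' P)
    (D : Divisor k Fb) : Gam X NN δ D = Gam X NN δ' D := by
  ext z
  simp only [mem_Gam, Glue]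
  refine and_congr_right fun _ => and_congr_right fun _ => forall₂_congr fun P hP => ?_
  rw [h P hP]

/-- **(N2) Structure theorem.**  `M a` = twisted reduction of `L(a Y_∞ + D)`, `div f = m D`.
For `a` large: `M a ⊆ Γ_{δ_a}(a)` (`exists_le_Gam`) and both sides have the dimension of `H a = Γ_1(a)`
(`hMdim`, `eq_Gam`, `finrank_Gam`), so `M a = Γ_{δ_a}(a)` (`Submodule.eq_of_le_of_finrank_eq`);
`δ_a` does not depend on `a` on the nodes (`hMmono`, `eq_of_Gam_le`, `Gam_congr`). -/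
theorem Filt.twisted (m : ℕ) (hm : 0 < m) (M : ℕ → Submodule k (Fb × Fb))
    (hMB : ∀ a, ∀ z ∈ M a, z.1 ∈ riemannRochSpace (a • Dinf (k := k) σ) ∧
      z.2 ∈ riemannRochSpace (a • Dinf (k := k) σ))
    (hMmono : Monotone M)
    (hMdim : ∃ a₀, ∀ a, a₀ ≤ a → Module.finrank k (M a) = Module.finrank k (𝓗.H a))
    (hpow : ∀ a, ∀ z ∈ M a, z ^ m ∈ 𝓗.H (m * a)) :
    ∃ δ : Place k Fb → k, (∀ P, δ P ^ m = 1) ∧
      ∃ a₂ : ℕ, ∀ a, a₂ ≤ a → M a = Gam X 𝓗.nodes δ (a • Dinf (k := k) σ) := by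
  choose δ hδ hδM using fun a => 𝓗.exists_le_Gam m hm a (M a) (hMB a) (hpow a)
  obtain ⟨a₀, h₀⟩ := hMdim
  obtain ⟨a₁, h₁⟩ := 𝓗.eq_Gam
  obtain ⟨a₃, h₃⟩ := 𝓗.exists_degree_lt (2 * (genusFF k Fb : ℤ) - 2 + 𝓗.nodes.ncard)
  have hne : ∀ a P, δ a P ≠ 0 := by
    intro a P h0
    have := hδ a P
    rw [h0, zero_pow hm.ne'] at this
    exact zero_ne_one this
  have heq : ∀ a, max a₀ (max a₁ a₃) ≤ a → M a = Gam X 𝓗.nodes (δ a) (a • Dinf (k := k) σ) := by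
    intro a ha
    have ha₀ : a₀ ≤ a := le_trans (le_max_left _ _) ha
    have ha₁ : a₁ ≤ a := le_trans (le_trans (le_max_left _ _) (le_max_right _ _)) ha
    have ha₃ : a₃ ≤ a := le_trans (le_trans (le_max_right _ _) (le_max_right _ _)) ha
    refine Submodule.eq_of_le_of_finrank_eq (hδM a) ?_
    have e1 := finrank_Gam X 𝓗.nodes 𝓗.finite_nodes 1 (fun _ _ => one_ne_zero)
      (a • Dinf (k := k) σ) (fun P hP => 𝓗.Dinf_nodes a hP) (h₃ a ha₃)
    have e2 := finrank_Gam X 𝓗.nodes 𝓗.finite_nodes (δ a) (fun P _ => hne a P)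
      (a • Dinf (k := k) σ) (fun P hP => 𝓗.Dinf_nodes a hP) (h₃ a ha₃)
    rw [h₀ a ha₀, h₁ a ha₁]
    have : (Module.finrank k (Gam X 𝓗.nodes 1 (a • Dinf (k := k) σ)) : ℤ) =
        Module.finrank k (Gam X 𝓗.nodes (δ a) (a • Dinf (k := k) σ)) := by rw [e1, e2]
    exact_mod_cast this
  refine ⟨δ (max a₀ (max a₁ a₃)), hδ _, max a₀ (max a₁ a₃), fun a ha => ?_⟩
  rw [heq a ha]
  refine Gam_congr (fun P hP => ?_) _
  refine (𝓗.eq_of_Gam_le (a := max a₀ (max a₁ a₃)) (b := a)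
    (h₃ _ (le_trans (le_max_right _ _) (le_max_right _ _))) ?_ P hP).symm
  rw [← heq a ha, ← heq _ le_rfl]
  exact hMmono ha

omit [IsFF k Fb] [IsAlgClosed k] in
/-- elements of `L(D)` are regular where `D` vanishes. -/
theorem TW2_ord_nonneg {D : Divisor k Fb} {u : Fb} (hu : u ∈ riemannRochSpace D)
    {P : Place k Fb} (hD : D P = 0) : 0 ≤ P.ord u := by
  rcases mem_riemannRochSpace_iff.1 hu P with h | h
  · rw [h, Place.ord_zero]
  · rwa [hD, neg_zero] at h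

/-- a nonzero value means a unit. -/
theorem TW2_unit_of_ev_ne_zero {P : Place k Fb} {u : Fb} (h0 : 0 ≤ P.ord u) (h : ev P u ≠ 0) :
    u ≠ 0 ∧ P.ord u = 0 := by
  have h1 := (not_congr (ev_eq_zero_iff P h0)).1 h
  push Not at h1
  exact ⟨h1.1, le_antisymm h1.2 h0⟩

/-- **(N4)** sections which are units at a given finite set of points outside the poles of `σ`:
`z.2 ∈ L(a D)` with value `1` on `T ∪ NN`, `z.1 ∈ L(a D)` with value `δ P` at `Φ P` (`P ∈ NN`) and `1` on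
the rest of `T` (`exists_mem_L_ev`; `ev_ne_zero`/`ev_eq_zero_iff` to translate). -/
theorem Filt.exists_unit_section (δ : Place k Fb → k) (hδ : ∀ P, δ P ≠ 0) (T : Set (Place k Fb))
    (hT : T.Finite) (hTσ : ∀ P ∈ T, 0 ≤ P.ord σ) :
    ∃ a₄ : ℕ, ∀ a, a₄ ≤ a → ∃ z ∈ Gam X 𝓗.nodes δ (a • Dinf (k := k) σ),
      ∀ P ∈ T, (z.1 ≠ 0 ∧ P.ord z.1 = 0) ∧ (z.2 ≠ 0 ∧ P.ord z.2 = 0) := by
  classical
  have hNN := 𝓗.finite_nodes
  let T2 : Finset (Place k Fb) := hT.toFinset ∪ hNN.toFinset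
  let T1 : Finset (Place k Fb) := hT.toFinset ∪ hNN.toFinset.image X.Φ
  obtain ⟨a₄, h₄⟩ := 𝓗.exists_degree_lt
    (2 * (genusFF k Fb : ℤ) - 2 + max (T1.card : ℤ) (T2.card : ℤ))
  refine ⟨a₄, fun a ha => ?_⟩
  have hdeg := h₄ a ha
  have hD2 : ∀ P ∈ T2, (a • Dinf (k := k) σ) P = 0 := by
    intro P hP
    rcases Finset.mem_union.1 hP with h | h
    · simp [Dinf_apply_of_nonneg (hTσ P (hT.mem_toFinset.1 h))]
    · exact (𝓗.Dinf_nodes a (hNN.mem_toFinset.1 h)).1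
  have hD1 : ∀ P ∈ T1, (a • Dinf (k := k) σ) P = 0 := by
    intro P hP
    rcases Finset.mem_union.1 hP with h | h
    · simp [Dinf_apply_of_nonneg (hTσ P (hT.mem_toFinset.1 h))]
    · obtain ⟨Q, hQ, rfl⟩ := Finset.mem_image.1 h
      exact (𝓗.Dinf_nodes a (hNN.mem_toFinset.1 hQ)).2
  -- the prescribed values of the first coordinate
  let c1 : Place k Fb → k := fun Q =>
    if h : ∃ P ∈ 𝓗.nodes, X.Φ P = Q then δ h.choose else 1
  have hc1 : ∀ P ∈ 𝓗.nodes, c1 (X.Φ P) = δ P := by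
    intro P hP
    have h : ∃ P' ∈ 𝓗.nodes, X.Φ P' = X.Φ P := ⟨P, hP, rfl⟩
    have h1 : c1 (X.Φ P) = δ h.choose := dif_pos h
    rw [h1, 𝓗.injOn_nodes h.choose_spec.1 hP h.choose_spec.2]
  have hc1ne : ∀ Q, c1 Q ≠ 0 := by
    intro Q
    by_cases h : ∃ P ∈ 𝓗.nodes, X.Φ P = Q
    · have h1 : c1 Q = δ h.choose := dif_pos h
      rw [h1]; exact hδ _
    · have h1 : c1 Q = 1 := dif_neg h
      rw [h1]; exact one_ne_zero
  obtain ⟨u1, hu1, hev1⟩ := exists_mem_L_ev (a • Dinf (k := k) σ) T1 hD1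
    (lt_of_le_of_lt (by have := le_max_left (T1.card : ℤ) (T2.card : ℤ); linarith) hdeg) c1
  obtain ⟨u2, hu2, hev2⟩ := exists_mem_L_ev (a • Dinf (k := k) σ) T2 hD2
    (lt_of_le_of_lt (by have := le_max_right (T1.card : ℤ) (T2.card : ℤ); linarith) hdeg)
    (fun _ => 1)
  refine ⟨(u1, u2), ⟨hu1, hu2, fun P hP => ?_⟩, fun P hP => ⟨?_, ?_⟩⟩
  · have hP1 : X.Φ P ∈ T1 :=
      Finset.mem_union_right _ (Finset.mem_image_of_mem _ (hNN.mem_toFinset.2 hP))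
    have hP2 : P ∈ T2 := Finset.mem_union_right _ (hNN.mem_toFinset.2 hP)
    refine ⟨(mem_iff _).2 (TW2_ord_nonneg hu1 (hD1 _ hP1)),
      (mem_iff _).2 (TW2_ord_nonneg hu2 (hD2 _ hP2)), ?_⟩
    show ev (X.Φ P) u1 = δ P * ev P u2
    rw [hev1 _ hP1, hev2 _ hP2, hc1 P hP, mul_one]
  · have hP1 : P ∈ T1 := Finset.mem_union_left _ (hT.mem_toFinset.2 hP)
    exact TW2_unit_of_ev_ne_zero (TW2_ord_nonneg hu1 (hD1 _ hP1)) (by rw [hev1 _ hP1]; exact hc1ne P)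
  · have hP2 : P ∈ T2 := Finset.mem_union_left _ (hT.mem_toFinset.2 hP)
    exact TW2_unit_of_ev_ne_zero (TW2_ord_nonneg hu2 (hD2 _ hP2))
      (by rw [hev2 _ hP2]; exact one_ne_zero)

/-- **(N5)** a common section which does not vanish at the nodes forces `δ = δ'`. -/
theorem Filt.eq_of_common_section {δ δ' : Place k Fb → k} {a b : ℕ} {z : Fb × Fb}
    (h : z ∈ Gam X 𝓗.nodes δ (a • Dinf (k := k) σ))
    (h' : z ∈ Gam X 𝓗.nodes δ' (b • Dinf (k := k) σ))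
    (hz : ∀ P ∈ 𝓗.nodes, ev P z.2 ≠ 0) : ∀ P ∈ 𝓗.nodes, δ P = δ' P := by
  intro P hP
  have h1 := (h.2.2 P hP).2.2
  have h2 := (h'.2.2 P hP).2.2
  unfold Glue at h1 h2
  rw [h1] at h2
  exact mul_right_cancel₀ (hz P hP) h2

/-- abstract form of the iteration of the pencil trick. -/
theorem TW2_le_of_forall_map_le {k V : Type*} [Field k] [AddCommGroup V] [Module k V]
    (S : V →ₗ[k] V) (G : ℕ → Submodule k V) (a₃ : ℕ)
    (hG : ∀ a, a₃ ≤ a → G (a + 1) = G a ⊔ (G a).map S) :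
    ∀ (N : ℕ) (U : Submodule k V), (∀ i ≤ N, (G a₃).map (S ^ i) ≤ U) → G (a₃ + N) ≤ U := by
  intro N
  induction N with
  | zero =>
    intro U hU
    have := hU 0 le_rfl
    rwa [pow_zero, Module.End.one_eq_id, Submodule.map_id] at this
  | succ N ih =>
    intro U hU
    rw [← add_assoc, hG _ (Nat.le_add_right _ _)]
    refine sup_le (ih U fun i hi => hU i (hi.trans (Nat.le_succ N))) ?_
    rw [Submodule.map_le_iff_le_comap]
    refine ih _ fun i hi => ?_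
    rw [← Submodule.map_le_iff_le_comap, ← Submodule.map_comp]
    have := hU (i + 1) (Nat.succ_le_succ hi)
    rwa [pow_succ', Module.End.mul_eq_comp] at this

/-- powers of a degree one map. -/
theorem TW2_map_pow_le {k V : Type*} [Field k] [AddCommGroup V] [Module k V]
    (S : V →ₗ[k] V) (G : ℕ → Submodule k V) (hS : ∀ a, (G a).map S ≤ G (a + 1)) (a : ℕ) :
    ∀ i : ℕ, (G a).map (S ^ i) ≤ G (a + i) := by
  intro i
  induction i with
  | zero => rw [pow_zero, Module.End.one_eq_id, Submodule.map_id]; exact le_rfl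
  | succ i ih =>
    rw [pow_succ', Module.End.mul_eq_comp, Submodule.map_comp, ← add_assoc]
    exact (Submodule.map_mono ih).trans (hS _)

/-- **(N3)** (input of the Cech argument of step (5)):
`Γ_δ(a + b) = S^(b - a₀) Γ_δ(a + a₀) + Γ_δ(a₀ + b)` for `a, b ≥ a₀`, i.e.
`M(a, b) = M(a, a₀) + M(a₀, b)` after multiplication by `S^b`.
From `Gam_succ`: `Γ(N) = ∑_{i ≤ N - n₀} S^i Γ(n₀)`; take `a₀ ≥ n₀`; a term with `i ≥ b - a₀` lies in
`S^(b - a₀) Γ(a + a₀)`, a term with `i < b - a₀` lies in `Γ(n₀ + i) ⊆ Γ(a₀ + b)`. -/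
theorem Filt.Gam_split (δ : Place k Fb → k) (hδ : ∀ P, δ P ≠ 0) :
    ∃ a₀ : ℕ, ∀ a b c : ℕ, a₀ ≤ a → b = a₀ + c →
      Gam X 𝓗.nodes δ ((a + b) • Dinf (k := k) σ)
        = (Gam X 𝓗.nodes δ ((a + a₀) • Dinf (k := k) σ)).map ((mulS σ) ^ c)
          ⊔ Gam X 𝓗.nodes δ ((a₀ + b) • Dinf (k := k) σ) := by
  obtain ⟨a₃, h₃⟩ := Gam_succ X σ 𝓗.pole 𝓗.nodes 𝓗.finite_nodes δ (fun P _ => hδ P)
    (fun P hP => 𝓗.reg_nodes hP) (fun P hP => 𝓗.ev_σ_nodes hP)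
  let G : ℕ → Submodule k (Fb × Fb) := fun n => Gam X 𝓗.nodes δ (n • Dinf (k := k) σ)
  have hmono : Monotone G := Gam_mono X σ 𝓗.nodes δ
  have hS : ∀ n, (G n).map (mulS σ) ≤ G (n + 1) :=
    map_mulS_Gam_le X σ 𝓗.nodes δ (fun P hP => 𝓗.reg_nodes hP) (fun P hP => 𝓗.ev_σ_nodes hP)
  refine ⟨a₃, fun a b c ha hb => ?_⟩
  show G (a + b) = (G (a + a₃)).map ((mulS σ) ^ c) ⊔ G (a₃ + b)
  apply le_antisymm
  · have e : a + b = a₃ + (a + c) := by omega
    rw [e]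
    refine TW2_le_of_forall_map_le (mulS σ) G a₃ h₃ (a + c) _ fun i hi => ?_
    by_cases hic : c ≤ i
    · refine le_trans ?_ le_sup_left
      obtain ⟨j, rfl⟩ := Nat.exists_eq_add_of_le hic
      rw [pow_add, Module.End.mul_eq_comp, Submodule.map_comp]
      refine Submodule.map_mono ((TW2_map_pow_le (mulS σ) G hS a₃ j).trans (hmono ?_))
      omega
    · refine le_trans ?_ le_sup_right
      refine (TW2_map_pow_le (mulS σ) G hS a₃ i).trans (hmono ?_)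
      omega
  · refine sup_le ?_ (hmono (by omega))
    refine (TW2_map_pow_le (mulS σ) G hS (a + a₃) c).trans (hmono ?_)
    omega

end Fermat.Agent.DR.Nodal
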