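import Fermat.Agent.DR.Abs.Defs
import Fermat.Agent.DR.Abs.Nodal.Twist

/-!
# DR/Abs/Nodal: bridge to `DR/Abs/Defs.lean`: `IsPreNodal` for a pair of reductions

`T : MultiRed K F k (fun _ : Fin 2 => Fb)`, `x : F` the `w`-invariant coordinate, `red x = (σ, σ)`.
`PairHyp T x X σ` is the list of hypotheses (step (1) + DR/Conc); the output is
`PairHyp.isPreNodal`.
-/

set_option autoImplicit false

noncomputable section

namespace Fermat.Agent.DR.Nodal

open AlgebraicCurve Fermat.Agent.Lib.RR Fermat.Agent.Lib.PlaceEval Fermat.Agent.GAL.RED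
open Fermat.Agent.DR.Abs (MultiRed NodeData IsPreNodal bipole)

variable {K F k Fb : Type*} [Field K] [Field F] [Algebra K F] [Field k] [Field Fb] [Algebra k Fb]

/-- the two notions of value at a place coincide (both are `0` at a pole; uniqueness of the value:
`ev_eq_iff`). -/
theorem abs_ev_eq [IsFF k Fb] [IsAlgClosed k] (P : Place k Fb) (u : Fb) :
    Fermat.Agent.DR.Abs.ev P u = ev P u := by
  classical
  unfold Fermat.Agent.DR.Abs.ev
  by_cases hu : 0 ≤ P.ord u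
  · have hex : ∃ c : k, u = algebraMap k Fb c ∨ 0 < P.ord (u - algebraMap k Fb c) :=
      ⟨ev P u, ord_sub_ev_pos P hu⟩
    rw [dif_pos hex]
    exact ((ev_eq_iff P hu _).2 hex.choose_spec).symm
  · have hnex : ¬ ∃ c : k, u = algebraMap k Fb c ∨ 0 < P.ord (u - algebraMap k Fb c) := by
      rintro ⟨c, hc | hc⟩
      · apply hu
        rw [hc, ord_algebraMap]
      · apply hu
        have h1 : u - algebraMap k Fb c ∈ P.toValuationSubring := (mem_iff P).2 hc.le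
        have h2 : algebraMap k Fb c ∈ P.toValuationSubring := P.algebraMap_mem' c
        have h3 := add_mem h1 h2
        rw [sub_add_cancel] at h3
        exact (mem_iff P).1 h3
    rw [dif_neg hnex]
    exact (ev_of_not_mem P (fun h => hu ((mem_iff P).1 h))).symm

section general

variable {K₀ F₀ : Type*} [Field K₀] [Field F₀] [Algebra K₀ F₀] [IsFF K₀ F₀]

/-- `L(a (x)_∞ + b (x)_0) = x ^ (-b) L((a + b) (x)_∞)`. -/
theorem mem_L_bipole_iff {x : F₀} (hx : x ≠ 0) (a b : ℕ) (y : F₀) :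
    y ∈ riemannRochSpace (bipole K₀ x a b) ↔
      x ^ b * y ∈ riemannRochSpace ((a + b) • poleDiv (K := K₀) x) := by
  rw [mem_riemannRochSpace_iff, mem_riemannRochSpace_iff]
  refine forall_congr' fun v => ?_
  rcases eq_or_ne y 0 with rfl | hy
  · simp
  have hxb : x ^ b ≠ 0 := pow_ne_zero b hx
  have e1 : v.ord (x ^ b * y) = b * v.ord x + v.ord y := by
    rw [v.ord_mul hxb hy, ord_pow]
  have e2 : max (v.ord x) 0 = max (-(v.ord x)) 0 + v.ord x := by
    rcases le_total (v.ord x) 0 with h | h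
    · rw [max_eq_right h, max_eq_left (by omega)]; ring
    · rw [max_eq_left h, max_eq_right (by omega)]; ring
  have e3 : bipole K₀ x a b v = a * max (-(v.ord x)) 0 + b * (max (-(v.ord x)) 0 + v.ord x) := by
    unfold bipole
    rw [Finsupp.add_apply, Finsupp.smul_apply, Finsupp.smul_apply, poleDiv_apply, poleDiv_apply,
      v.ord_inv, neg_neg, e2]
    simp
  have e4 : ((a + b) • poleDiv (K := K₀) x) v = ((a : ℤ) + b) * max (-(v.ord x)) 0 := by
    rw [Finsupp.smul_apply, poleDiv_apply]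
    simp
  rw [e1, e3, e4]
  have hne : x ^ b * y ≠ 0 := mul_ne_zero hxb hy
  simp only [hy, hne, false_or]
  constructor <;> intro h <;> nlinarith

theorem mul_mem_L {D D' : Divisor K₀ F₀} {y y' : F₀} (hy : y ∈ riemannRochSpace D)
    (hy' : y' ∈ riemannRochSpace D') : y * y' ∈ riemannRochSpace (D + D') := by
  rw [mem_riemannRochSpace_iff] at *
  intro v
  rcases eq_or_ne y 0 with rfl | h0
  · left; simp
  rcases eq_or_ne y' 0 with rfl | h0'
  · left; simp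
  right
  have h1 := (hy v).resolve_left h0
  have h2 := (hy' v).resolve_left h0'
  rw [v.ord_mul h0 h0', Finsupp.add_apply]
  omega

theorem self_mem_L_poleDiv (x : F₀) : x ∈ riemannRochSpace (1 • poleDiv (K := K₀) x) := by
  rw [mem_riemannRochSpace_iff]
  intro v
  right
  rw [one_smul, poleDiv_apply]
  have := le_max_left (-(v.ord x)) 0
  omega

theorem one_mem_L_zero_smul (D : Divisor K₀ F₀) : (1 : F₀) ∈ riemannRochSpace (0 • D) := by
  rw [mem_riemannRochSpace_iff]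
  intro v
  right
  rw [zero_smul]
  have : v.ord (1 : F₀) = 0 := by
    have := ord_algebraMap v (1 : K₀)
    rwa [map_one] at this
  rw [this]
  simp

end general

variable [IsFF K F] [IsAlgClosed K] [IsFF k Fb] [IsAlgClosed k]

/-- **Hypotheses on the pair of reductions** (to be delivered by step (1) and DR/Conc). -/
structure PairHyp (T : MultiRed K F k (fun _ : Fin 2 => Fb)) (x : F) (X : Frob k Fb) (σ : Fb) :
    Prop where
  cart : T.IsCartesian
  sep : T.Sep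
  red_x : ∀ i, (T.R i).red x = σ
  Φs_σ : X.Φs σ = σ ^ X.q
  pole : ∃ P : Place k Fb, P.ord σ < 0
  fix_unit : ∀ P : Place k Fb, X.Φ (X.Φ P) = P → P.ord σ = 0
  /-- from the involution `w` (`R 1 = R 0 ∘ w`, `w x = x`) -/
  swap : ∀ a : ℕ, ∀ y ∈ riemannRochSpace (a • poleDiv (K := K) x), y ∈ T.O →
    ∃ y' ∈ riemannRochSpace (a • poleDiv (K := K) x), y' ∈ T.O ∧
      (T.R 0).red y' = (T.R 1).red y ∧ (T.R 1).red y' = (T.R 0).red y
  /-- pole bounds ((C) of design v2) -/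
  bound : ∀ a : ℕ, ∀ y ∈ riemannRochSpace (a • poleDiv (K := K) x), y ∈ T.O →
    ∀ i, (T.R i).red y ∈ riemannRochSpace (a • poleDiv (K := k) σ)
  degree : Divisor.degree (poleDiv (K := K) x) = 2 * Divisor.degree (poleDiv (K := k) σ)
  /-- old functions, first chart -/
  old : ∀ u ∈ regOut (polesOf (k := k) σ), ∃ (a : ℕ) (y : F),
    y ∈ riemannRochSpace (a • poleDiv (K := K) x) ∧ y ∈ T.O ∧
      (T.R 0).red y = u ∧ (T.R 1).red y = X.Φs u
  /-- old functions, second chart -/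
  old_inf : ∀ u ∈ regOut (zerosOf (k := k) σ), ∃ (b : ℕ) (y : F),
    y ∈ riemannRochSpace (b • poleDiv (K := K) x⁻¹) ∧ y ∈ T.O ∧
      (T.R 0).red y = u ∧ (T.R 1).red y = X.Φs u

variable {T : MultiRed K F k (fun _ : Fin 2 => Fb)} {x : F} {X : Frob k Fb} {σ : Fb}

/-- `H a = red L(a (x)_∞)`, as a subspace of `Fb × Fb`. -/
def pairH (T : MultiRed K F k (fun _ : Fin 2 => Fb)) (x : F) (a : ℕ) : Submodule k (Fb × Fb) :=
  (T.redSub (riemannRochSpace (a • poleDiv (K := K) x))).map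
    (LinearEquiv.piFinTwo k (fun _ : Fin 2 => Fb)).toLinearMap

theorem mem_pairH {a : ℕ} {z : Fb × Fb} : z ∈ pairH T x a ↔
    ∃ y ∈ riemannRochSpace (a • poleDiv (K := K) x), y ∈ T.O ∧
      (T.R 0).red y = z.1 ∧ (T.R 1).red y = z.2 := by
  unfold pairH
  rw [Submodule.mem_map]
  constructor
  · rintro ⟨w, ⟨y, hy, hyO, rfl⟩, rfl⟩
    exact ⟨y, hy, hyO, rfl, rfl⟩
  · rintro ⟨y, hy, hyO, h0, h1⟩
    exact ⟨T.red y, ⟨y, hy, hyO, rfl⟩, Prod.ext h0 h1⟩

namespace PairHyp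

variable (h : PairHyp T x X σ)

include h

theorem σ_ne_zero : σ ≠ 0 := by
  obtain ⟨P, hP⟩ := h.pole
  rintro rfl
  simp at hP

theorem x_mem_O : x ∈ T.O := fun i =>
  (T.R i).mem_of_red_ne_zero (by rw [h.red_x i]; exact h.σ_ne_zero)

theorem x_ne_zero : x ≠ 0 := by
  rintro rfl
  have h0 := h.red_x 0
  rw [(T.R 0).red_of_mem (T.R 0).O.zero_mem] at h0
  exact h.σ_ne_zero (h0.symm.trans (map_zero _))

theorem x_inv_mem_O : x⁻¹ ∈ T.O := fun i =>
  (T.R i).mem_of_red_ne_zero (by rw [(T.R i).red_inv, h.red_x i]; exact inv_ne_zero h.σ_ne_zero)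

/-- `L(a) L(b) ⊆ L(a + b)`, `red` is multiplicative on `O`. -/
theorem pairH_mul (a b : ℕ) : ∀ z ∈ pairH T x a, ∀ w ∈ pairH T x b, z * w ∈ pairH T x (a + b) := by
  intro z hz w hw
  obtain ⟨y, hy, hyO, h0, h1⟩ := mem_pairH.1 hz
  obtain ⟨y', hy', hyO', h0', h1'⟩ := mem_pairH.1 hw
  refine mem_pairH.2 ⟨y * y', ?_, T.O.mul_mem hyO hyO', ?_, ?_⟩
  · rw [add_smul]
    exact mul_mem_L hy hy'
  · rw [(T.R 0).red_mul (hyO 0) (hyO' 0), h0, h0']
    rfl
  · rw [(T.R 1).red_mul (hyO 1) (hyO' 1), h1, h1']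
    rfl

theorem pairH_mono : Monotone (pairH T x) := by
  intro a b hab z hz
  obtain ⟨y, hy, hyO, h0, h1⟩ := mem_pairH.1 hz
  exact mem_pairH.2 ⟨y, L_Dinf_mono (k := K) (σ := x) hab hy, hyO, h0, h1⟩

/-- Cartesian + Riemann-Roch on `F` (`ell_eq_of_lt_degree'`) + `h.degree`;
`deg (x)_∞ > 0` by `h.degree`, `degree_Dinf_pos`. -/
theorem pairH_dim : ∃ a₀ : ℕ, ∀ a, a₀ ≤ a → (Module.finrank k (pairH T x a) : ℤ)
    = 2 * a * Divisor.degree (Dinf (k := k) σ) + 1 - (genusFF K F : ℤ) := by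
  have hd := degree_Dinf_pos (k := k) h.pole
  refine ⟨(2 * (genusFF K F : ℤ) - 2).toNat + 1, fun a ha => ?_⟩
  have e1 : Module.finrank k (pairH T x a) =
      Module.finrank k (T.redSub (riemannRochSpace (a • poleDiv (K := K) x))) :=
    LinearEquiv.finrank_map_eq _ _
  have e2 := h.cart (riemannRochSpace (a • poleDiv (K := K) x)) inferInstance
  have hdeg : Divisor.degree (a • poleDiv (K := K) x) =
      2 * a * Divisor.degree (Dinf (k := k) σ) := by
    rw [map_nsmul, nsmul_eq_mul, h.degree]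
    ring
  have hlt : 2 * (genusFF K F : ℤ) - 2 < Divisor.degree (a • poleDiv (K := K) x) := by
    rw [hdeg]
    have h1 := Int.self_le_toNat (2 * (genusFF K F : ℤ) - 2)
    have h2 : ((2 * (genusFF K F : ℤ) - 2).toNat : ℤ) + 1 ≤ a := by exact_mod_cast ha
    have h3 : (0 : ℤ) ≤ a := Int.natCast_nonneg a
    nlinarith
  have e3 := ell_eq_of_lt_degree' hlt
  rw [e1, e2, ← hdeg]
  exact e3

/-- `y ∈ L(b (x)_0) ∩ O` ⟹ `x ^ b * y ∈ L(b (x)_∞) ∩ O`. -/
theorem pairH_alpha_inf : ∀ u ∈ regOut (zerosOf (k := k) σ),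
    ∃ b, (σ ^ b * u, σ ^ b * X.Φs u) ∈ pairH T x b := by
  intro u hu
  obtain ⟨b, y, hy, hyO, h0, h1⟩ := h.old_inf u hu
  refine ⟨b, mem_pairH.2 ⟨x ^ b * y, ?_, T.O.mul_mem (T.O.pow_mem h.x_mem_O b) hyO, ?_, ?_⟩⟩
  · have := (mem_L_bipole_iff (K₀ := K) h.x_ne_zero 0 b y).1 (by
      unfold bipole
      rwa [zero_smul, zero_add])
    rwa [zero_add] at this
  · rw [(T.R 0).red_mul ((T.R 0).O.pow_mem (h.x_mem_O 0) b) (hyO 0), (T.R 0).red_pow, h.red_x, h0]
  · rw [(T.R 1).red_mul ((T.R 1).O.pow_mem (h.x_mem_O 1) b) (hyO 1), (T.R 1).red_pow, h.red_x, h1]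

/-- The filtration attached to the pair. -/
def filt : Filt X σ where
  H := pairH T x
  g := genusFF K F
  Φs_σ := h.Φs_σ
  pole := h.pole
  le_B := by
    intro a z hz
    obtain ⟨y, hy, hyO, h0, h1⟩ := mem_pairH.1 hz
    exact ⟨h0 ▸ h.bound a y hy hyO 0, h1 ▸ h.bound a y hy hyO 1⟩
  mono := h.pairH_mono
  one_mem := mem_pairH.2 ⟨1, one_mem_L_zero_smul _, T.O.one_mem, (T.R 0).red_one, (T.R 1).red_one⟩
  mul_mem := h.pairH_mul
  S_mem := mem_pairH.2 ⟨x, self_mem_L_poleDiv x, h.x_mem_O, h.red_x 0, h.red_x 1⟩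
  swap_mem := by
    intro a z hz
    obtain ⟨y, hy, hyO, h0, h1⟩ := mem_pairH.1 hz
    obtain ⟨y', hy', hyO', h0', h1'⟩ := h.swap a y hy hyO
    exact mem_pairH.2 ⟨y', hy', hyO', by rw [h0', h1]; rfl, by rw [h1', h0]; rfl⟩
  dim := h.pairH_dim
  alpha := by
    intro u hu
    obtain ⟨a, y, hy, hyO, h0, h1⟩ := h.old u hu
    exact ⟨a, mem_pairH.2 ⟨y, hy, hyO, h0, h1⟩⟩
  alpha_inf := h.pairH_alpha_inf
  fix_unit := h.fix_unit

/-- The nodes of the pair: the node `P` has the branches `(0, Φ P)` and `(1, P)`. -/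
def nodeData : NodeData k (fun _ : Fin 2 => Fb) ↥(h.filt.nodes) where
  i₁ := fun _ => 0
  i₂ := fun _ => 1
  p₁ := fun e => X.Φ e.1
  p₂ := fun e => e.1

/-- `z ∈ red L(a (x)_∞ + b (x)_0) ↔ (σ, σ) ^ b * z ∈ H (a + b)`
(`L(a (x)_∞ + b (x)_0) = x ^ (-b) L((a + b) (x)_∞)`, `x` is a unit of `T.O`). -/
theorem mem_redSub_bipole_iff (a b : ℕ) (z : ∀ _ : Fin 2, Fb) :
    z ∈ T.redSub (riemannRochSpace (bipole K x a b)) ↔
      (σ ^ b * z 0, σ ^ b * z 1) ∈ pairH T x (a + b) := by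
  rw [mem_pairH, MultiRed.mem_redSub]
  constructor
  · rintro ⟨y, hy, hyO, rfl⟩
    refine ⟨x ^ b * y, (mem_L_bipole_iff (K₀ := K) h.x_ne_zero a b y).1 hy,
      T.O.mul_mem (T.O.pow_mem h.x_mem_O b) hyO, ?_, ?_⟩
    · rw [(T.R 0).red_mul ((T.R 0).O.pow_mem (h.x_mem_O 0) b) (hyO 0), (T.R 0).red_pow, h.red_x]
      rfl
    · rw [(T.R 1).red_mul ((T.R 1).O.pow_mem (h.x_mem_O 1) b) (hyO 1), (T.R 1).red_pow, h.red_x]
      rfl
  · rintro ⟨y', hy', hyO', h0, h1⟩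
    have hxb : x ^ b * (x⁻¹ ^ b * y') = y' := by
      rw [← mul_assoc, ← mul_pow, mul_inv_cancel₀ h.x_ne_zero, one_pow, one_mul]
    have hσb : σ⁻¹ ^ b * (σ ^ b) = 1 := by
      rw [← mul_pow, inv_mul_cancel₀ h.σ_ne_zero, one_pow]
    refine ⟨x⁻¹ ^ b * y', (mem_L_bipole_iff (K₀ := K) h.x_ne_zero a b _).2 (by rw [hxb]; exact hy'),
      T.O.mul_mem (T.O.pow_mem h.x_inv_mem_O b) hyO', ?_⟩
    funext i
    have key : ∀ i, (T.R i).red y' = σ ^ b * z i → (T.R i).red (x⁻¹ ^ b * y') = z i := by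
      intro i hi
      rw [(T.R i).red_mul ((T.R i).O.pow_mem (h.x_inv_mem_O i) b) (hyO' i), (T.R i).red_pow,
        (T.R i).red_inv, h.red_x, hi, ← mul_assoc, hσb, one_mul]
    fin_cases i
    · exact key 0 h0
    · exact key 1 h1

/-- `(σ ^ b u, σ ^ b u') ∈ Γ(a + b) ↔ u, u' ∈ L(a (σ)_∞ + b (σ)_0)` and `(u, u')` is glued at the nodes
(`σ` is a unit at `P`, `Φ P` with `σ (Φ P) = σ (P)`: `fix_unit`, `ev_σ_nodes`). -/
theorem mem_Gam_bipole_iff (a b : ℕ) (u u' : Fb) :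
    (σ ^ b * u, σ ^ b * u') ∈ Gam X h.filt.nodes 1 ((a + b) • Dinf (k := k) σ) ↔
      (u ∈ riemannRochSpace (bipole k σ a b) ∧ u' ∈ riemannRochSpace (bipole k σ a b)) ∧
        ∀ P ∈ h.filt.nodes, ev (X.Φ P) u = ev P u' := by
  rw [mem_Gam, ← and_assoc]
  have e1 := mem_L_bipole_iff (K₀ := k) h.σ_ne_zero a b u
  have e2 := mem_L_bipole_iff (K₀ := k) h.σ_ne_zero a b u'
  show ((σ ^ b * u ∈ _ ∧ σ ^ b * u' ∈ _) ∧ _) ↔ _
  rw [← e1, ← e2]
  refine and_congr_right fun hL => forall₂_congr fun P hP => ?_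
  have hP0 : P.ord σ = 0 := h.fix_unit _ hP.2.1
  have hΦ0 : (X.Φ P).ord σ = 0 := by rw [ord_Φ_σ X h.Φs_σ]; exact hP0
  have hreg : ∀ (Q : Place k Fb) (w : Fb), Q.ord σ = 0 → w ∈ riemannRochSpace (bipole k σ a b) →
      0 ≤ Q.ord w := by
    intro Q w hQ hw
    rcases (mem_riemannRochSpace_iff.1 hw Q) with rfl | hw'
    · rw [Place.ord_zero]
    · have : bipole k σ a b Q = 0 := by
        unfold bipole
        rw [Finsupp.add_apply, Finsupp.smul_apply, Finsupp.smul_apply, poleDiv_apply,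
          poleDiv_apply, Q.ord_inv, hQ]
        simp
      rw [this] at hw'
      simpa using hw'
  have hu : 0 ≤ (X.Φ P).ord u := hreg _ _ hΦ0 hL.1
  have hu' : 0 ≤ P.ord u' := hreg _ _ hP0 hL.2
  have hσb : 0 ≤ P.ord (σ ^ b) := by rw [ord_pow, hP0]; simp
  have hσbΦ : 0 ≤ (X.Φ P).ord (σ ^ b) := by rw [ord_pow, hΦ0]; simp
  have hev : ev P σ ≠ 0 := ev_ne_zero P h.σ_ne_zero hP0
  have hglue : Glue X 1 P (σ ^ b * u, σ ^ b * u') ↔ ev (X.Φ P) u = ev P u' := by
    unfold Glue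
    show ev (X.Φ P) (σ ^ b * u) = (1 : Place k Fb → k) P * ev P (σ ^ b * u') ↔ _
    rw [Pi.one_apply, one_mul, ev_mul _ hσbΦ hu, ev_mul _ hσb hu', ev_pow _ hΦ0.ge, ev_pow _ hP0.ge,
      h.filt.ev_σ_nodes hP]
    exact ⟨fun hh => mul_left_cancel₀ (pow_ne_zero b hev) hh, fun hh => by rw [hh]⟩
  rw [← hglue]
  constructor
  · exact fun hh => hh.2.2
  · exact fun hh => ⟨mul_mem ((mem_iff _).2 hσbΦ) ((mem_iff _).2 hu),
      mul_mem ((mem_iff _).2 hσb) ((mem_iff _).2 hu'), hh⟩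

/-- **Output of Part B**: the pair of reductions is (pre)nodal. -/
theorem isPreNodal : ∃ a₀ : ℕ, IsPreNodal T x h.nodeData a₀ := by
  obtain ⟨a₁, h₁⟩ := h.filt.eq_Gam
  refine ⟨a₁, ⟨h.cart, h.sep, ?_, ?_, ?_, ?_, ?_⟩⟩
  · -- injectivity of the branches
    have hb1 : ∀ e : ↥(h.filt.nodes), h.nodeData.branch (Sum.inl e) =
        (⟨0, X.Φ e.1⟩ : Σ _ : Fin 2, Place k Fb) := fun _ => rfl
    have hb2 : ∀ e : ↥(h.filt.nodes), h.nodeData.branch (Sum.inr e) =
        (⟨1, e.1⟩ : Σ _ : Fin 2, Place k Fb) := fun _ => rfl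
    rintro (e | e) (e' | e') hee
    · rw [hb1, hb1, Sigma.mk.injEq] at hee
      exact congrArg Sum.inl (Subtype.ext (h.filt.injOn_nodes e.2 e'.2 (eq_of_heq hee.2)))
    · rw [hb1, hb2, Sigma.mk.injEq] at hee
      exact absurd hee.1 (by decide)
    · rw [hb2, hb1, Sigma.mk.injEq] at hee
      exact absurd hee.1 (by decide)
    · rw [hb2, hb2, Sigma.mk.injEq] at hee
      exact congrArg Sum.inr (Subtype.ext (eq_of_heq hee.2))
  · -- `σ` is not constant
    rintro i ⟨c, hc⟩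
    rw [h.red_x i] at hc
    obtain ⟨P, hP⟩ := h.pole
    rw [← hc, ord_algebraMap] at hP
    exact lt_irrefl _ hP
  · intro e
    show (X.Φ e.1).ord ((T.R 0).red x) = 0
    rw [h.red_x, ord_Φ_σ X h.Φs_σ]
    exact h.fix_unit _ e.2.2.1
  · intro e
    show (e.1).ord ((T.R 1).red x) = 0
    rw [h.red_x]
    exact h.fix_unit _ e.2.2.1
  · intro a b hab z
    rw [h.mem_redSub_bipole_iff a b z]
    have := h₁ (a + b) hab
    change pairH T x (a + b) = _ at this
    rw [this, h.mem_Gam_bipole_iff a b]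
    refine and_congr ?_ ?_
    · constructor
      · rintro ⟨h0, h1⟩ i
        show z i ∈ riemannRochSpace (bipole k ((T.R i).red x) a b)
        rw [h.red_x i]
        fin_cases i
        · exact h0
        · exact h1
      · intro hz
        have h0 := hz 0
        have h1 := hz 1
        change z 0 ∈ riemannRochSpace (bipole k ((T.R 0).red x) a b) at h0
        change z 1 ∈ riemannRochSpace (bipole k ((T.R 1).red x) a b) at h1
        rw [h.red_x] at h0 h1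
        exact ⟨h0, h1⟩
    · constructor
      · intro hg e
        show Fermat.Agent.DR.Abs.ev (X.Φ e.1) (z 0) = (1 : ↥(h.filt.nodes) → k) e * Fermat.Agent.DR.Abs.ev e.1 (z 1)
        rw [abs_ev_eq, abs_ev_eq, Pi.one_apply, one_mul]
        exact hg e.1 e.2
      · intro hg P hP
        have := hg ⟨P, hP⟩
        change Fermat.Agent.DR.Abs.ev (X.Φ P) (z 0) = (1 : ↥(h.filt.nodes) → k) ⟨P, hP⟩ * Fermat.Agent.DR.Abs.ev P (z 1) at this
        rwa [abs_ev_eq, abs_ev_eq, Pi.one_apply, one_mul] at this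

/-- the number of nodes. -/
theorem ncard_nodes : (h.filt.nodes.ncard : ℤ) = genusFF K F - 2 * genusFF k Fb + 1 :=
  h.filt.ncard_nodes

end PairHyp

end Fermat.Agent.DR.Nodal
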