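import Fermat.Agent.DR.Abs.Nodal.Classify

/-!
# DR/Abs/Nodal, leaf CH (step (3) of the plan): the two charts of the special fibre
-/

set_option autoImplicit false

noncomputable section

namespace Fermat.Agent.DR.Nodal

open AlgebraicCurve Fermat.Agent.Lib.RR Fermat.Agent.Lib.PlaceEval Fermat.Agent.GAL.RED

variable {k Fb : Type*} [Field k] [Field Fb] [Algebra k Fb] [IsFF k Fb] [IsAlgClosed k]
variable {X : Frob k Fb} {σ : Fb} (𝓗 : Filt X σ)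

/-- the nodes are fixed points of `Φ²` outside the poles of `σ`: `finite_fix` with
`Z = polesOf σ`. -/
theorem Filt.finite_nodes : 𝓗.nodes.Finite := by
  refine (finite_fix X (polesOf (k := k) σ) 𝓗.pole (Φ_mem_polesOf_iff X 𝓗.Φs_σ)).subset ?_
  intro P hP
  exact ⟨fun h => absurd hP.1 (not_le.mpr h), hP.2.1⟩

theorem Filt.injOn_nodes : Set.InjOn X.Φ 𝓗.nodes := by
  intro P hP Q hQ h
  rw [← hP.2.1, ← hQ.2.1, h]

/-- `(σ, σ) ∈ H 1` is glued at the nodes. -/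
theorem Filt.ev_σ_nodes {P : Place k Fb} (hP : P ∈ 𝓗.nodes) : ev (X.Φ P) σ = ev P σ := by
  have := hP.2.2 1 _ 𝓗.S_mem
  simpa [Glue] using this

theorem Filt.reg_nodes {P : Place k Fb} (hP : P ∈ 𝓗.nodes) :
    0 ≤ P.ord σ ∧ 0 ≤ (X.Φ P).ord σ :=
  ⟨hP.1, by rw [ord_Φ_σ X 𝓗.Φs_σ]; exact hP.1⟩

/-- `H a ⊆ Γ(a)` (`le_B`, definition of the nodes, `Dinf_apply_of_nonneg`). -/
theorem Filt.H_le_Gam (a : ℕ) : 𝓗.H a ≤ Gam X 𝓗.nodes 1 (a • Dinf (k := k) σ) := by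
  intro z hz
  obtain ⟨h1, h2⟩ := 𝓗.le_B a z hz
  refine mem_Gam.mpr ⟨h1, h2, fun P hP => ⟨?_, ?_, hP.2.2 a z hz⟩⟩
  · exact mem_regOut.mp (mem_regOut_of_mem_L h1) _ (fun h => absurd (𝓗.reg_nodes hP).2 (not_le.mpr h))
  · exact mem_regOut.mp (mem_regOut_of_mem_L h2) _ (fun h => absurd (𝓗.reg_nodes hP).1 (not_le.mpr h))

/-- `S H(a) ⊆ H(a+1)`. -/
theorem Filt.map_mulS_H_le (a : ℕ) : (𝓗.H a).map (mulS σ) ≤ 𝓗.H (a + 1) := by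
  rintro _ ⟨z, hz, rfl⟩
  have := 𝓗.mul_mem 1 a _ 𝓗.S_mem z hz
  rw [add_comm] at this
  exact this

/-- **Chart 1.**  `classify` with `Z = polesOf σ` and `R = ⨆ a, H a`
(`Submodule.mem_iSup_of_directed`, `𝓗.mono`): `hR` from `le_B` + `mem_regOut_of_mem_L`; `hα` from
`alpha`; `hβ` from `alpha`, `swap_mem`, `mul_mem`.  So `z ∈ H a'` for some `a'`; use `mono`. -/
theorem Filt.exists_mem_H {a : ℕ} {z : Fb × Fb}
    (hz : z ∈ Gam X 𝓗.nodes 1 (a • Dinf (k := k) σ)) : ∃ n, z ∈ 𝓗.H (a + n) := by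
  have hdir : ∀ {w : Fb × Fb}, w ∈ (⨆ a, 𝓗.H a) ↔ ∃ a, w ∈ 𝓗.H a :=
    Submodule.mem_iSup_of_directed _ 𝓗.mono.directed_le
  obtain ⟨hz1, hz2, hzN⟩ := mem_Gam.mp hz
  have hmem : z ∈ (⨆ a, 𝓗.H a) := by
    refine classify X (polesOf (k := k) σ) 𝓗.pole (finite_polesOf σ) (Φ_mem_polesOf_iff X 𝓗.Φs_σ)
      (⨆ a, 𝓗.H a) ?_ ?_ ?_ ?_ (mem_regOut_of_mem_L hz1) (mem_regOut_of_mem_L hz2) ?_
    · intro w hw
      obtain ⟨b, hb⟩ := hdir.mp hw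
      obtain ⟨h1, h2⟩ := 𝓗.le_B b w hb
      exact ⟨mem_regOut_of_mem_L h1, mem_regOut_of_mem_L h2⟩
    · intro u hu
      exact hdir.mpr (𝓗.alpha u hu)
    · intro u hu w hw
      obtain ⟨b, hb⟩ := hdir.mp hw
      obtain ⟨c, hc⟩ := 𝓗.alpha u hu
      exact hdir.mpr ⟨c + b, 𝓗.mul_mem c b _ (𝓗.swap_mem c _ hc) w hb⟩
    · exact hdir.mpr ⟨0, 𝓗.one_mem⟩
    · intro P hP hΦ hglue
      have hPn : P ∈ 𝓗.nodes :=
        ⟨not_lt.mp hP, hΦ, fun b w hw => hglue w (hdir.mpr ⟨b, hw⟩)⟩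
      exact (hzN P hPn).2.2
  obtain ⟨n, hn⟩ := hdir.mp hmem
  exact ⟨n, 𝓗.mono (Nat.le_add_left n a) hn⟩

/-- `S^n H(a) ⊆ H(a+n)`. -/
theorem Filt.pow_mulS_mem {a : ℕ} {z : Fb × Fb} (hz : z ∈ 𝓗.H a) (n : ℕ) :
    ((mulS (k := k) σ) ^ n) z ∈ 𝓗.H (a + n) := by
  induction n with
  | zero => simpa using hz
  | succ n ih =>
    rw [pow_succ', Module.End.mul_apply, ← add_assoc]
    exact 𝓗.map_mulS_H_le (a + n) ⟨_, ih, rfl⟩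

/-- The ring of the second chart. -/
def Filt.Rinf : Submodule k (Fb × Fb) where
  carrier := {z | ∃ b : ℕ, ((mulS (k := k) σ) ^ b) z ∈ 𝓗.H b}
  zero_mem' := ⟨0, by simp⟩
  add_mem' := by
    rintro z w ⟨b, hb⟩ ⟨c, hc⟩
    refine ⟨b + c, ?_⟩
    rw [map_add]
    refine Submodule.add_mem _ ?_ ?_
    · rw [add_comm b c, pow_add, Module.End.mul_apply, add_comm c b]
      exact 𝓗.pow_mulS_mem hb c
    · rw [pow_add, Module.End.mul_apply, add_comm b c]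
      exact 𝓗.pow_mulS_mem hc b
  smul_mem' := by
    rintro c z ⟨b, hb⟩
    exact ⟨b, by rw [map_smul]; exact Submodule.smul_mem _ c hb⟩

/-- `S^b z = (σ^b z.1, σ^b z.2)`. -/
theorem mulS_pow_apply (σ : Fb) (b : ℕ) (z : Fb × Fb) :
    ((mulS (k := k) σ) ^ b) z = (σ ^ b * z.1, σ ^ b * z.2) := by
  induction b generalizing z with
  | zero => simp
  | succ b ih =>
    rw [pow_succ, Module.End.mul_apply, ih, mulS_apply]
    ext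
    · show σ ^ b * (σ * z.1) = σ ^ (b + 1) * z.1
      ring
    · show σ ^ b * (σ * z.2) = σ ^ (b + 1) * z.2
      ring

include 𝓗 in
theorem Filt.σ_ne_zero : σ ≠ 0 := by
  obtain ⟨P, hP⟩ := 𝓗.pole
  rintro rfl
  simp at hP

/-- `S^n H(b) ⊆ H(b+n)`. -/
theorem Filt.mulS_pow_mem_H (n : ℕ) {b : ℕ} {z : Fb × Fb} (hz : z ∈ 𝓗.H b) :
    ((mulS (k := k) σ) ^ n) z ∈ 𝓗.H (b + n) := by
  induction n with
  | zero => simpa using hz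
  | succ n ih =>
    rw [pow_succ', Module.End.mul_apply, ← add_assoc]
    exact 𝓗.map_mulS_H_le (b + n) ⟨_, ih, rfl⟩

/-- multiplying by `S^(-a)` does not change the gluing condition at a point where `σ` is a unit
with `σ (Φ P) = σ (P)`. -/
theorem glue_inv_pow_mul_iff (X : Frob k Fb) {σ : Fb} (hσ0 : σ ≠ 0) {P : Place k Fb}
    (hP0 : P.ord σ = 0) (hQ0 : (X.Φ P).ord σ = 0) (hs : ev (X.Φ P) σ = ev P σ) (a : ℕ)
    {w : Fb × Fb} (hr1 : 0 ≤ (X.Φ P).ord w.1) (hr2 : 0 ≤ P.ord w.2) :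
    Glue X 1 P ((σ⁻¹ ^ a * w.1, σ⁻¹ ^ a * w.2) : Fb × Fb) ↔ Glue X 1 P w := by
  have hne : ev P σ ≠ 0 := ev_ne_zero P hσ0 hP0
  have hi1 : 0 ≤ (X.Φ P).ord (σ⁻¹ ^ a) := by
    rw [ord_pow, Place.ord_inv, hQ0]; simp
  have hi2 : 0 ≤ P.ord (σ⁻¹ ^ a) := by
    rw [ord_pow, Place.ord_inv, hP0]; simp
  have hj1 : 0 ≤ (X.Φ P).ord σ⁻¹ := by rw [Place.ord_inv, hQ0]; simp
  have hj2 : 0 ≤ P.ord σ⁻¹ := by rw [Place.ord_inv, hP0]; simp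
  simp only [Glue, Pi.one_apply, one_mul]
  rw [ev_mul _ hi1 hr1, ev_mul _ hi2 hr2, ev_pow _ hj1, ev_pow _ hj2, ev_inv _ hQ0, ev_inv _ hP0, hs]
  exact mul_right_inj' (pow_ne_zero _ (inv_ne_zero hne))

/-- a point glued in the second chart is a node: `ord_P σ = ord_{Φ P} σ = 0` by `fix_unit`
(`Φ P` is a fixed point of `Φ²` as well); `(σ⁻¹, σ⁻¹) ∈ Rinf` gives `σ (Φ P) = σ (P) ≠ 0`; for `w ∈ H a`, `S^(-a) w ∈ Rinf` is glued at `P`, hence so is `w`. -/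
theorem Filt.mem_nodes_of_glue {P : Place k Fb} (hΦ : X.Φ (X.Φ P) = P) (h : ∀ w ∈ 𝓗.Rinf, Glue X 1 P w) : P ∈ 𝓗.nodes := by
  have hσ0 : σ ≠ 0 := 𝓗.σ_ne_zero
  have hP0 : P.ord σ = 0 := 𝓗.fix_unit P hΦ
  have hQ0 : (X.Φ P).ord σ = 0 := by rw [ord_Φ_σ X 𝓗.Φs_σ]; exact hP0
  -- `σ (Φ P) = σ (P)`
  have hinv : ((σ⁻¹, σ⁻¹) : Fb × Fb) ∈ 𝓗.Rinf := by
    refine ⟨1, ?_⟩
    rw [mulS_pow_apply]
    simp only [pow_one, mul_inv_cancel₀ hσ0]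
    exact 𝓗.mono (Nat.zero_le 1) 𝓗.one_mem
  have hs : ev (X.Φ P) σ = ev P σ := by
    have h1 := h _ hinv
    simp only [Glue, Pi.one_apply, one_mul] at h1
    rw [ev_inv _ hQ0, ev_inv _ hP0] at h1
    exact inv_injective h1
  refine ⟨hP0.ge, hΦ, fun a w hw => ?_⟩
  have hw' : ((σ⁻¹ ^ a * w.1, σ⁻¹ ^ a * w.2) : Fb × Fb) ∈ 𝓗.Rinf := by
    refine ⟨a, ?_⟩
    rw [mulS_pow_apply]
    simp only [← mul_assoc, ← mul_pow, mul_inv_cancel₀ hσ0, one_pow, one_mul]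
    exact hw
  have h2 := h _ hw'
  obtain ⟨hB1, hB2⟩ := 𝓗.le_B a w hw
  have hr1 : 0 ≤ (X.Φ P).ord w.1 :=
    (mem_iff _).1 (mem_regOut_of_mem_L hB1 (X.Φ P) (by simp [polesOf, hQ0]))
  have hr2 : 0 ≤ P.ord w.2 :=
    (mem_iff _).1 (mem_regOut_of_mem_L hB2 P (by simp [polesOf, hP0]))
  exact (glue_inv_pow_mul_iff X hσ0 hP0 hQ0 hs a hr1 hr2).1 h2

/-- **Chart 2.**  `classify` with `Z = zerosOf σ` (nonempty: `σ` has a pole, so it is not constant and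
has a zero: `deg (divOf σ) = 0`), `R = Rinf` applied to `S^(-a) z`: `hR` from `mem_regOut_zerosOf`;
`hα` from `alpha_inf`; `hβ` from `alpha_inf`, `swap_mem`, `mul_mem`; `hglue` from
`mem_nodes_of_glue` + `ev_σ_nodes` + `hz`.  This gives `b` with `S^b S^(-a) z ∈ H b`; if `b < a`
multiply by `S^(a-b)` (`map_mulS_H_le`). -/
theorem Filt.exists_pow_mem_H {a : ℕ} {z : Fb × Fb}
    (hz : z ∈ Gam X 𝓗.nodes 1 (a • Dinf (k := k) σ)) :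
    ∃ n, ((mulS (k := k) σ) ^ n) z ∈ 𝓗.H (a + n) := by
  have hσ0 : σ ≠ 0 := 𝓗.σ_ne_zero
  obtain ⟨hz1, hz2, hzN⟩ := hz
  -- the zeros of `σ`
  have hZne : (zerosOf (k := k) σ).Nonempty := by
    obtain ⟨P₀, hP₀⟩ := 𝓗.pole
    have hnc : σ ∉ Set.range (algebraMap k Fb) := by
      rintro ⟨c, rfl⟩
      rw [ord_algebraMap] at hP₀
      exact lt_irrefl _ hP₀
    obtain ⟨Q, hQ⟩ := curveBasic_exists_zero (K := k) hnc
    exact ⟨Q, hQ⟩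
  have key : ((σ⁻¹ ^ a * z.1, σ⁻¹ ^ a * z.2) : Fb × Fb) ∈ 𝓗.Rinf := by
    refine classify X (zerosOf (k := k) σ) hZne (finite_zerosOf σ)
      (Φ_mem_zerosOf_iff X 𝓗.Φs_σ) 𝓗.Rinf ?_ ?_ ?_ ?_ ?_ ?_ ?_
    · -- hR
      rintro w ⟨b, hb⟩
      rw [mulS_pow_apply] at hb
      obtain ⟨h1, h2⟩ := 𝓗.le_B b _ hb
      exact ⟨mem_regOut_zerosOf hσ0 h1, mem_regOut_zerosOf hσ0 h2⟩
    · -- hα
      intro u hu
      obtain ⟨b, hb⟩ := 𝓗.alpha_inf u hu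
      exact ⟨b, by rw [mulS_pow_apply]; exact hb⟩
    · -- hβ
      rintro u hu w ⟨c, hc⟩
      obtain ⟨b, hb⟩ := 𝓗.alpha_inf u hu
      have hb' := 𝓗.swap_mem b _ hb
      have hm := 𝓗.mul_mem b c _ hb' _ hc
      refine ⟨b + c, ?_⟩
      rw [mulS_pow_apply] at hc hm ⊢
      convert hm using 1
      ext
      · simp only [Prod.fst_mul, Prod.fst_swap]
        ring
      · simp only [Prod.snd_mul, Prod.snd_swap]
        ring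
    · -- h1
      exact ⟨0, by simpa using 𝓗.one_mem⟩
    · -- hz1
      apply mem_regOut_zerosOf hσ0 (b := a)
      rw [← mul_assoc, ← mul_pow, mul_inv_cancel₀ hσ0, one_pow, one_mul]
      exact hz1
    · -- hz2
      apply mem_regOut_zerosOf hσ0 (b := a)
      rw [← mul_assoc, ← mul_pow, mul_inv_cancel₀ hσ0, one_pow, one_mul]
      exact hz2
    · -- hglue
      intro P _ hΦ hgl
      have hPn : P ∈ 𝓗.nodes := 𝓗.mem_nodes_of_glue hΦ hgl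
      have hP0 : P.ord σ = 0 := 𝓗.fix_unit P hΦ
      have hQ0 : (X.Φ P).ord σ = 0 := by rw [ord_Φ_σ X 𝓗.Φs_σ]; exact hP0
      obtain ⟨h1, h2, h3⟩ := hzN P hPn
      exact (glue_inv_pow_mul_iff X hσ0 hP0 hQ0 (𝓗.ev_σ_nodes hPn) a
        ((mem_iff _).1 h1) ((mem_iff _).1 h2)).2 h3
  obtain ⟨b, hb⟩ := key
  refine ⟨b, ?_⟩
  have h3 := 𝓗.mulS_pow_mem_H a hb
  rw [add_comm a b]
  convert h3 using 1
  rw [mulS_pow_apply, mulS_pow_apply, mulS_pow_apply]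
  have e : σ ^ a * σ⁻¹ ^ a = 1 := by rw [← mul_pow, mul_inv_cancel₀ hσ0, one_pow]
  ext
  · show σ ^ b * z.1 = σ ^ a * (σ ^ b * (σ⁻¹ ^ a * z.1))
    calc σ ^ b * z.1 = (σ ^ a * σ⁻¹ ^ a) * (σ ^ b * z.1) := by rw [e, one_mul]
      _ = _ := by ring
  · show σ ^ b * z.2 = σ ^ a * (σ ^ b * (σ⁻¹ ^ a * z.2))
    calc σ ^ b * z.2 = (σ ^ a * σ⁻¹ ^ a) * (σ ^ b * z.2) := by rw [e, one_mul]
      _ = _ := by ring

end Fermat.Agent.DR.Nodal
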