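import Fermat.Agent.DR.Abs.Nodal.Defs

/-!
# DR/Abs/Nodal, leaf F: elementary facts on `Frob`, `regOut`, `L(a (σ)_∞)`
All proofs are a few lines from `X.ord_Φs`, `PlaceEval.mem_iff` (`f ∈ O_P ↔ 0 ≤ ord_P f`),
`PlaceEval.ev_eq_iff`, `mem_riemannRochSpace_iff` / `Lib.RR.mem_L_iff`, `RED.poleDiv_apply`.
-/

set_option autoImplicit false
set_option linter.unusedSectionVars false

noncomputable section

namespace Fermat.Agent.DR.Nodal

open AlgebraicCurve Fermat.Agent.Lib.RR Fermat.Agent.Lib.PlaceEval Fermat.Agent.GAL.RED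

variable {k Fb : Type*} [Field k] [Field Fb] [Algebra k Fb] [IsFF k Fb] [IsAlgClosed k]
variable (X : Frob k Fb)

omit [IsFF k Fb] [IsAlgClosed k] in
theorem FrobBasic_mem_iff (P : Place k Fb) {f : Fb} : f ∈ P.toValuationSubring ↔ 0 ≤ P.ord f := by
  rcases eq_or_ne f 0 with rfl | hf
  · simp
  · exact Fermat.Agent.S24.mem_iff_ord_nonneg P hf

omit [IsAlgClosed k] in
theorem FrobBasic_mem_L_iff {σ : Fb} {a : ℕ} {u : Fb} :
    u ∈ riemannRochSpace (a • Dinf (k := k) σ) ↔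
      ∀ P : Place k Fb, u = 0 ∨ -((a : ℤ) * max (-(P.ord σ)) 0) ≤ P.ord u := by
  rw [mem_riemannRochSpace_iff]
  refine forall_congr' fun P => ?_
  rw [Finsupp.smul_apply, poleDiv_apply, nsmul_eq_mul]

omit [IsFF k Fb] [IsAlgClosed k] in
theorem ne_zero_of_pole {σ : Fb} (h : ∃ P : Place k Fb, P.ord σ < 0) : σ ≠ 0 := by
  rintro rfl
  obtain ⟨P, hP⟩ := h
  rw [P.ord_zero] at hP
  exact lt_irrefl _ hP

theorem Φs_mem (P : Place k Fb) {u : Fb} (hu : u ∈ (X.Φ P).toValuationSubring) :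
    X.Φs u ∈ P.toValuationSubring := by
  rw [FrobBasic_mem_iff] at hu ⊢
  rw [X.ord_Φs]
  exact mul_nonneg (Nat.cast_nonneg _) hu

/-- `(Φ^* u)(P) = u(Φ P)`: `u - c` vanishes at `Φ P` ⟹ `Φ^* u - c` vanishes at `P`
(`ev_eq_iff`, `X.Φs.commutes`). -/
theorem ev_Φs (P : Place k Fb) {u : Fb} (hu : u ∈ (X.Φ P).toValuationSubring) :
    ev P (X.Φs u) = ev (X.Φ P) u := by
  have h1 : 0 ≤ P.ord (X.Φs u) := (FrobBasic_mem_iff P).1 (Φs_mem X P hu)
  rw [ev_eq_iff P h1]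
  have hq : (0 : ℤ) < X.q := by
    have := X.two_le
    positivity
  rcases ord_sub_ev_pos (X.Φ P) ((FrobBasic_mem_iff _).1 hu) with h | h
  · left
    conv_lhs => rw [h]
    exact X.Φs.commutes _
  · right
    rw [← X.Φs.commutes, ← map_sub, X.ord_Φs]
    exact mul_pos hq h

theorem ord_Φs_Φs (P : Place k Fb) (u : Fb) :
    P.ord (X.Φs (X.Φs u)) = (X.q : ℤ) ^ 2 * (X.Φ (X.Φ P)).ord u := by
  rw [X.ord_Φs, X.ord_Φs]
  ring

/-- `q * ord_{Φ P} σ = ord_P (Φ^* σ) = ord_P (σ ^ q) = q * ord_P σ`. -/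
theorem ord_Φ_σ {σ : Fb} (hσ : X.Φs σ = σ ^ X.q) (P : Place k Fb) :
    (X.Φ P).ord σ = P.ord σ := by
  have h := X.ord_Φs P σ
  rw [hσ, ord_pow] at h
  have hq : (X.q : ℤ) ≠ 0 := by
    have := X.two_le
    positivity
  exact (mul_left_cancel₀ hq h).symm

theorem Φ_mem_polesOf_iff {σ : Fb} (hσ : X.Φs σ = σ ^ X.q) (P : Place k Fb) :
    X.Φ P ∈ polesOf (k := k) σ ↔ P ∈ polesOf (k := k) σ := by
  change (X.Φ P).ord σ < 0 ↔ P.ord σ < 0
  rw [ord_Φ_σ X hσ]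

theorem Φ_mem_zerosOf_iff {σ : Fb} (hσ : X.Φs σ = σ ^ X.q) (P : Place k Fb) :
    X.Φ P ∈ zerosOf (k := k) σ ↔ P ∈ zerosOf (k := k) σ := by
  change 0 < (X.Φ P).ord σ ↔ 0 < P.ord σ
  rw [ord_Φ_σ X hσ]

theorem Φs_mem_regOut {Z : Set (Place k Fb)} (hZ : ∀ P, X.Φ P ∈ Z ↔ P ∈ Z) {u : Fb}
    (hu : u ∈ regOut Z) : X.Φs u ∈ regOut Z := by
  intro P hP
  apply Φs_mem
  apply hu
  rwa [hZ]

omit [IsAlgClosed k] in
theorem finite_polesOf (σ : Fb) : (polesOf (k := k) σ).Finite := by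
  refine (divOf (K := k) σ).support.finite_toSet.subset ?_
  intro P hP
  rw [Finset.mem_coe, Finsupp.mem_support_iff, divOf_apply]
  exact ne_of_lt hP

omit [IsAlgClosed k] in
theorem finite_zerosOf (σ : Fb) : (zerosOf (k := k) σ).Finite := by
  refine (divOf (K := k) σ).support.finite_toSet.subset ?_
  intro P hP
  rw [Finset.mem_coe, Finsupp.mem_support_iff, divOf_apply]
  exact ne_of_gt hP

omit [IsAlgClosed k] in
theorem Dinf_apply_of_nonneg {σ : Fb} {P : Place k Fb} (h : 0 ≤ P.ord σ) :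
    Dinf (k := k) σ P = 0 := by
  rw [poleDiv_apply]
  exact max_eq_right (by omega)

omit [IsAlgClosed k] in
theorem mem_regOut_of_mem_L {σ : Fb} {a : ℕ} {u : Fb}
    (hu : u ∈ riemannRochSpace (a • Dinf (k := k) σ)) : u ∈ regOut (polesOf (k := k) σ) := by
  rw [FrobBasic_mem_L_iff] at hu
  intro P hP
  rw [FrobBasic_mem_iff]
  have hP' : 0 ≤ P.ord σ := not_lt.1 hP
  rcases hu P with rfl | h
  · rw [P.ord_zero]
  · rwa [max_eq_right (by omega), mul_zero, neg_zero] at h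

omit [IsAlgClosed k] in
/-- `u` has finitely many poles, all among the poles of `σ`: take `a` = max of the pole orders. -/
theorem exists_mem_L_of_mem_regOut {σ : Fb} {u : Fb} (hu : u ∈ regOut (polesOf (k := k) σ)) :
    ∃ a : ℕ, u ∈ riemannRochSpace (a • Dinf (k := k) σ) := by
  classical
  refine ⟨∑ P ∈ (finite_polesOf (k := k) σ).toFinset, (P.ord u).natAbs, ?_⟩
  rw [FrobBasic_mem_L_iff]
  intro P
  right
  set a := ∑ P ∈ (finite_polesOf (k := k) σ).toFinset, (P.ord u).natAbs with ha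
  by_cases hP : P ∈ polesOf (k := k) σ
  · have h1 : (P.ord u).natAbs ≤ a :=
      Finset.single_le_sum (f := fun Q : Place k Fb => (Q.ord u).natAbs)
        (fun _ _ => Nat.zero_le _) ((finite_polesOf (k := k) σ).mem_toFinset.2 hP)
    have h2 : P.ord σ < 0 := hP
    have h3 : (1 : ℤ) ≤ max (-(P.ord σ)) 0 := le_max_of_le_left (by omega)
    have h4 : (a : ℤ) * 1 ≤ (a : ℤ) * max (-(P.ord σ)) 0 :=
      mul_le_mul_of_nonneg_left h3 (Nat.cast_nonneg _)
    have h5 : -(P.ord u) ≤ ((P.ord u).natAbs : ℤ) := by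
      rw [Int.natCast_natAbs]
      exact neg_le_abs _
    have h6 : ((P.ord u).natAbs : ℤ) ≤ (a : ℤ) := by exact_mod_cast h1
    omega
  · have h1 : 0 ≤ P.ord u := (FrobBasic_mem_iff P).1 (hu P hP)
    have h2 : (0 : ℤ) ≤ (a : ℤ) * max (-(P.ord σ)) 0 :=
      mul_nonneg (Nat.cast_nonneg _) (le_max_right _ _)
    omega

omit [IsAlgClosed k] in
theorem L_Dinf_mono {σ : Fb} {a b : ℕ} (h : a ≤ b) :
    riemannRochSpace (a • Dinf (k := k) σ) ≤ riemannRochSpace (b • Dinf (k := k) σ) := by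
  intro u hu
  rw [FrobBasic_mem_L_iff] at hu ⊢
  intro P
  rcases hu P with h0 | h0
  · exact Or.inl h0
  · right
    have h1 : (a : ℤ) * max (-(P.ord σ)) 0 ≤ (b : ℤ) * max (-(P.ord σ)) 0 :=
      mul_le_mul_of_nonneg_right (by exact_mod_cast h) (le_max_right _ _)
    omega

omit [IsAlgClosed k] in
/-- `σ * L(a (σ)_∞) ⊆ L((a+1) (σ)_∞)`. -/
theorem mul_σ_mem_L {σ : Fb} {a : ℕ} {u : Fb}
    (hu : u ∈ riemannRochSpace (a • Dinf (k := k) σ)) :
    σ * u ∈ riemannRochSpace ((a + 1) • Dinf (k := k) σ) := by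
  rw [FrobBasic_mem_L_iff] at hu ⊢
  intro P
  rcases eq_or_ne σ 0 with rfl | hσ
  · left; rw [zero_mul]
  rcases hu P with rfl | h0
  · left; rw [mul_zero]
  rcases eq_or_ne u 0 with rfl | hu0
  · left; rw [mul_zero]
  right
  rw [P.ord_mul hσ hu0]
  have h1 : -(P.ord σ) ≤ max (-(P.ord σ)) 0 := le_max_left _ _
  push_cast
  rw [add_mul, one_mul]
  omega

omit [IsAlgClosed k] in
/-- `L(a (σ)_∞) ∩ σ L(a (σ)_∞) = σ L((a-1) (σ)_∞)`: if `u` and `σ u` lie in `L((a+1) (σ)_∞)` then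
`u ∈ L(a (σ)_∞)` (look at each place: at a pole of `σ`, `ord u = ord (σ u) - ord σ`; elsewhere
`u` is regular). -/
theorem mem_L_of_mul_σ_mem_L {σ : Fb} {a : ℕ} {u : Fb}
    (hu : u ∈ riemannRochSpace ((a + 1) • Dinf (k := k) σ))
    (hσu : σ * u ∈ riemannRochSpace ((a + 1) • Dinf (k := k) σ)) :
    u ∈ riemannRochSpace (a • Dinf (k := k) σ) := by
  rw [FrobBasic_mem_L_iff] at hu hσu ⊢
  intro P
  rcases eq_or_ne u 0 with rfl | hu0
  · exact Or.inl rfl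
  right
  have h1 := (hu P).resolve_left hu0
  by_cases hP : P.ord σ < 0
  · have hσ : σ ≠ 0 := ne_zero_of_pole ⟨P, hP⟩
    have h2 := (hσu P).resolve_left (mul_ne_zero hσ hu0)
    rw [P.ord_mul hσ hu0] at h2
    rw [max_eq_left (by omega)] at h2 ⊢
    push_cast at h2
    rw [add_mul, one_mul] at h2
    omega
  · rw [max_eq_right (by omega), mul_zero, neg_zero] at h1 ⊢
    exact h1

omit [IsAlgClosed k] in
/-- `σ^(-b) L(b (σ)_∞)` consists of functions regular outside the zeros of `σ`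
(`σ ≠ 0` is needed: for `σ = 0`, `b ≥ 1` the hypothesis is empty). -/
theorem mem_regOut_zerosOf {σ : Fb} (hσ : σ ≠ 0) {b : ℕ} {u : Fb}
    (hu : σ ^ b * u ∈ riemannRochSpace (b • Dinf (k := k) σ)) :
    u ∈ regOut (zerosOf (k := k) σ) := by
  rw [FrobBasic_mem_L_iff] at hu
  intro P hP
  rw [FrobBasic_mem_iff]
  rcases eq_or_ne u 0 with rfl | hu0
  · rw [P.ord_zero]
  have hP' : P.ord σ ≤ 0 := not_lt.1 hP
  have h1 := (hu P).resolve_left (mul_ne_zero (pow_ne_zero _ hσ) hu0)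
  rw [P.ord_mul (pow_ne_zero _ hσ) hu0, ord_pow, max_eq_left (by omega)] at h1
  have h2 : -((b : ℤ) * -(P.ord σ)) = (b : ℤ) * P.ord σ := by ring
  omega

omit [IsAlgClosed k] in
/-- `deg (σ)_∞ > 0` if `σ` has a pole. -/
theorem degree_Dinf_pos {σ : Fb} (h : ∃ P : Place k Fb, P.ord σ < 0) :
    0 < Divisor.degree (Dinf (k := k) σ) := by
  obtain ⟨P, hP⟩ := h
  have h0 : 0 ≤ Dinf (k := k) σ := by
    intro Q
    rw [poleDiv_apply]
    exact le_max_right _ _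
  have h1 := degree_nonneg h0
  rcases h1.lt_or_eq with h2 | h2
  · exact h2
  · exfalso
    have h3 := eq_zero_of_nonneg_of_degree h0 h2.symm
    have h4 := congrArg (fun D : Divisor k Fb => D P) h3
    simp only [poleDiv_apply, Finsupp.coe_zero, Pi.zero_apply] at h4
    have h5 : -(P.ord σ) ≤ max (-(P.ord σ)) 0 := le_max_left _ _
    omega

end Fermat.Agent.DR.Nodal
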