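import Fermat.Agent.DR.Abs.Nodal.Ideal
import Fermat.Agent.DR.Abs.Nodal.FrobBasic

/-!
# DR/Abs/Nodal, leaf CL (step (2) of the plan): rings between the image of `B ⊗ B` and `B × B`
are cut out by gluing conditions at fixed points of `Φ²`
-/

set_option autoImplicit false

noncomputable section

namespace Fermat.Agent.DR.Nodal

open AlgebraicCurve Fermat.Agent.Lib.RR Fermat.Agent.Lib.PlaceEval Fermat.Agent.GAL.RED

variable {k Fb : Type*} [Field k] [Field Fb] [Algebra k Fb] [IsFF k Fb] [IsAlgClosed k]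
variable (X : Frob k Fb)

/-- the value of `v - Φ^*Φ^* v`. -/
theorem Classify_ev_sub {P : Place k Fb} {v : Fb} (hv : v ∈ P.toValuationSubring)
    (hv' : v ∈ (X.Φ (X.Φ P)).toValuationSubring) :
    ev P (v - X.Φs (X.Φs v)) = ev P v - ev (X.Φ (X.Φ P)) v := by
  have h1 : X.Φs v ∈ (X.Φ P).toValuationSubring := Φs_mem X (X.Φ P) hv'
  rw [ev_sub P ((mem_iff P).1 hv) ((mem_iff P).1 (Φs_mem X P h1)), ev_Φs X P h1,
    ev_Φs X (X.Φ P) hv']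

omit [IsAlgClosed k] [IsFF k Fb] in
/-- `v - Φ^*Φ^* v` is a uniformiser at a fixed point of `Φ²` if `v` is. -/
theorem Classify_ord_sub {P : Place k Fb} (hP : X.Φ (X.Φ P) = P) {v : Fb} (hv : P.ord v = 1) :
    v - X.Φs (X.Φs v) ≠ 0 ∧ P.ord (v - X.Φs (X.Φs v)) = 1 := by
  have hv0 : v ≠ 0 := by rintro rfl; simp at hv
  have h2 : P.ord (X.Φs (X.Φs v)) = (X.q : ℤ) ^ 2 := by
    rw [X.ord_Φs, X.ord_Φs, hP, hv]; ring
  have hq : (1 : ℤ) < (X.q : ℤ) ^ 2 := by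
    have : (2 : ℤ) ≤ X.q := by exact_mod_cast X.two_le
    nlinarith
  have h0 : X.Φs (X.Φs v) ≠ 0 := by
    intro h
    rw [h, Place.ord_zero] at h2
    omega
  have h3 : P.ord (v + -X.Φs (X.Φs v)) = P.ord v :=
    ord_add_eq_of_lt P hv0 (neg_ne_zero.2 h0) (by rw [ord_neg, h2, hv]; exact hq)
  rw [← sub_eq_add_neg, hv] at h3
  refine ⟨?_, h3⟩
  intro h
  rw [h, Place.ord_zero] at h3
  omega

/-- `Fix (Φ²)` is finite: if `P₀` is a fixed point, `v ∈ regOut Z` a uniformiser at `P₀`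
(`exists_unif`), then `c := v - Φ^* Φ^* v ≠ 0` (`ord_{P₀} (Φ^*Φ^* v) = q² ≠ 1`, `ord_Φs_Φs`), and `c`
vanishes at every fixed point `P ∉ Z` (`ev_Φs` twice), so `Fix ⊆ (divOf c).support`. -/
theorem finite_fix (Z : Set (Place k Fb)) (hZ : Z.Nonempty) (hZΦ : ∀ P, X.Φ P ∈ Z ↔ P ∈ Z) :
    {P | P ∉ Z ∧ X.Φ (X.Φ P) = P}.Finite := by
  rcases Set.eq_empty_or_nonempty {P | P ∉ Z ∧ X.Φ (X.Φ P) = P} with h | ⟨P₀, hP₀Z, hP₀⟩
  · rw [h]; exact Set.finite_empty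
  obtain ⟨v, hv, hvord⟩ := exists_unif Z hZ P₀ hP₀Z
  have hc : v - X.Φs (X.Φs v) ≠ 0 := (Classify_ord_sub X hP₀ hvord).1
  refine (divOf (K := k) (v - X.Φs (X.Φs v))).support.finite_toSet.subset ?_
  rintro P ⟨hPZ, hP⟩
  rw [Finset.mem_coe, Finsupp.mem_support_iff, divOf_apply]
  have h1 := Classify_ev_sub X (P := P) (hv P hPZ) (by rw [hP]; exact hv P hPZ)
  rw [hP, sub_self] at h1
  have h2 : 0 ≤ P.ord (v - X.Φs (X.Φs v)) := (mem_iff P).1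
    (sub_mem (hv P hPZ) (Φs_mem X P (Φs_mem X (X.Φ P) (by rw [hP]; exact hv P hPZ))))
  rcases (ev_eq_zero_iff P h2).1 h1 with h3 | h3
  · exact absurd h3 hc
  · exact h3.ne'

/-- **Classification.**  `I₂ := {c | (0, c) ∈ R}` is an ideal of `B = regOut Z` (by `hβ`), contained in
`B` (by `hR`); it contains `v - Φ^*Φ^* v` because
`(0, v - Φ^*Φ^* v) = (Φ^* v, v) - (Φ^* v, Φ^* (Φ^* v))`, and `w.2 - Φ^* w.1` for `w ∈ R`.
Apply `mem_ideal_of_local` with `NN := {P ∉ Z | Φ² P = P ∧ ∀ w ∈ R, Glue X 1 P w}`: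
* `P ∉ Z`, `Φ² P ≠ P`: `v` with `v(P) = 1`, `v(Φ² P) = 0` (`exists_interp`), `c = v - Φ^*Φ^* v` has
  `c(P) = 1`;
* `Φ² P = P`, some `w ∈ R` not glued at `P`: `c = w.2 - Φ^* w.1` has `c(P) ≠ 0`;
* `P ∈ NN`: `v` a uniformiser at `P`: `ord_P (v - Φ^*Φ^* v) = 1` since `ord_P (Φ^*Φ^* v) = q² > 1`;
* `hne`: there is a place outside the finite set `Z` (`GAL.FF.Cor.exists_place_notMem`).
Finally `z = (z.1, Φ^* z.1) + (0, z.2 - Φ^* z.1)`. -/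
theorem classify (Z : Set (Place k Fb)) (hZ : Z.Nonempty) (hZfin : Z.Finite)
    (hZΦ : ∀ P, X.Φ P ∈ Z ↔ P ∈ Z) (R : Submodule k (Fb × Fb))
    (hR : ∀ z ∈ R, z.1 ∈ regOut Z ∧ z.2 ∈ regOut Z)
    (hα : ∀ u ∈ regOut Z, (u, X.Φs u) ∈ R)
    (hβ : ∀ u ∈ regOut Z, ∀ z ∈ R, (X.Φs u, u) * z ∈ R)
    (h1 : (1 : Fb × Fb) ∈ R)
    {z : Fb × Fb} (hz1 : z.1 ∈ regOut Z) (hz2 : z.2 ∈ regOut Z)
    (hglue : ∀ P, P ∉ Z → X.Φ (X.Φ P) = P → (∀ w ∈ R, Glue X 1 P w) → Glue X 1 P z) :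
    z ∈ R := by
  classical
  let I : Submodule k Fb := R.comap (LinearMap.inr k Fb Fb)
  have hmemI : ∀ c : Fb, c ∈ I ↔ ((0 : Fb), c) ∈ R := fun c => Iff.rfl
  have hΦZ : ∀ P, P ∉ Z → X.Φ P ∉ Z := fun P hP h => hP ((hZΦ P).1 h)
  -- the two families of elements of `I`
  have hIa : ∀ v ∈ regOut Z, v - X.Φs (X.Φs v) ∈ I := by
    intro v hv
    rw [hmemI]
    have h2 : (X.Φs v, v) ∈ R := by simpa using hβ v hv 1 h1
    have h3 : (X.Φs v, X.Φs (X.Φs v)) ∈ R := hα _ (Φs_mem_regOut X hZΦ hv)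
    have h4 := R.sub_mem h2 h3
    simpa using h4
  have hIb : ∀ w ∈ R, w.2 - X.Φs w.1 ∈ I := by
    intro w hw
    rw [hmemI]
    have h3 : (w.1, X.Φs w.1) ∈ R := hα _ (hR w hw).1
    have h4 := R.sub_mem hw h3
    have h5 : w - (w.1, X.Φs w.1) = ((0 : Fb), w.2 - X.Φs w.1) := by
      ext <;> simp
    rwa [h5] at h4
  have hevb : ∀ (P : Place k Fb), P ∉ Z → ∀ w : Fb × Fb, w.1 ∈ regOut Z → w.2 ∈ regOut Z →
      (0 ≤ P.ord (w.2 - X.Φs w.1)) ∧ ev P (w.2 - X.Φs w.1) = ev P w.2 - ev (X.Φ P) w.1 := by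
    intro P hP w hw1 hw2
    have h1' : w.1 ∈ (X.Φ P).toValuationSubring := hw1 _ (hΦZ P hP)
    refine ⟨(mem_iff P).1 (sub_mem (hw2 P hP) (Φs_mem X P h1')), ?_⟩
    rw [ev_sub P ((mem_iff P).1 (hw2 P hP)) ((mem_iff P).1 (Φs_mem X P h1')), ev_Φs X P h1']
  let NN : Set (Place k Fb) := {P | P ∉ Z ∧ X.Φ (X.Φ P) = P ∧ ∀ w ∈ R, Glue X 1 P w}
  have hunit : ∀ (P : Place k Fb) (c : Fb), 0 ≤ P.ord c → ev P c ≠ 0 → c ≠ 0 ∧ P.ord c = 0 := by
    intro P c h0 hne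
    rw [Ne, ev_eq_zero_iff P h0, not_or] at hne
    exact ⟨hne.1, le_antisymm (not_lt.1 hne.2) h0⟩
  have h0 : ∀ P, P ∉ Z → P ∉ NN → ∃ h ∈ I, h ≠ 0 ∧ P.ord h = 0 := by
    intro P hPZ hPN
    by_cases hfix : X.Φ (X.Φ P) = P
    · have : ∃ w ∈ R, ¬ Glue X 1 P w := by
        by_contra hcon
        push Not at hcon
        exact hPN ⟨hPZ, hfix, hcon⟩
      obtain ⟨w, hw, hglw⟩ := this
      obtain ⟨hord, hev⟩ := hevb P hPZ w (hR w hw).1 (hR w hw).2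
      refine ⟨_, hIb w hw, hunit P _ hord ?_⟩
      rw [hev]
      intro h
      apply hglw
      unfold Glue
      rw [Pi.one_apply, one_mul]
      exact (sub_eq_zero.1 h).symm
    · obtain ⟨v, hv, hval⟩ := exists_interp Z hZ {P, X.Φ (X.Φ P)} (by
        intro Q hQ
        rcases Finset.mem_insert.1 hQ with rfl | hQ
        · exact hPZ
        · rw [Finset.mem_singleton] at hQ
          rw [hQ]
          exact hΦZ _ (hΦZ _ hPZ)) (fun Q => if Q = P then 1 else 0)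
      have hv1 : ev P v = 1 := by
        rw [hval P (Finset.mem_insert_self _ _), if_pos rfl]
      have hv2 : ev (X.Φ (X.Φ P)) v = 0 := by
        rw [hval _ (Finset.mem_insert_of_mem (Finset.mem_singleton_self _)), if_neg hfix]
      have hmem' : v ∈ (X.Φ (X.Φ P)).toValuationSubring := hv _ (hΦZ _ (hΦZ _ hPZ))
      refine ⟨_, hIa v hv, hunit P _ ?_ ?_⟩
      · exact (mem_iff P).1 (sub_mem (hv P hPZ) (Φs_mem X P (Φs_mem X (X.Φ P) hmem')))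
      · rw [Classify_ev_sub X (hv P hPZ) hmem', hv1, hv2, sub_zero]
        exact one_ne_zero
  have h1' : ∀ P ∈ NN, ∃ h ∈ I, P.ord h = 1 := by
    rintro P ⟨hPZ, hfix, -⟩
    obtain ⟨v, hv, hvord⟩ := exists_unif Z hZ P hPZ
    exact ⟨_, hIa v hv, (Classify_ord_sub X hfix hvord).2⟩
  have hne : ∃ g ∈ I, g ≠ 0 := by
    obtain ⟨P, hP⟩ := GAL.FF.Cor.exists_place_notMem (K := k) (F := Fb) hZfin.toFinset
    have hPZ : P ∉ Z := fun h => hP (hZfin.mem_toFinset.2 h)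
    by_cases hPN : P ∈ NN
    · obtain ⟨h, hh, hord⟩ := h1' P hPN
      refine ⟨h, hh, ?_⟩
      rintro rfl
      simp at hord
    · obtain ⟨h, hh, hh0, -⟩ := h0 P hPZ hPN
      exact ⟨h, hh, hh0⟩
  have hc : z.2 - X.Φs z.1 ∈ I := by
    refine mem_ideal_of_local Z hZ I (fun c hc => (hR _ hc).2) ?_ NN h0 h1' hne
      ((regOut Z).sub_mem hz2 (Φs_mem_regOut X hZΦ hz1)) ?_
    · intro u hu c hc
      rw [hmemI] at hc ⊢
      have := hβ u hu _ hc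
      simpa using this
    · rintro P ⟨hPZ, hfix, hgl⟩
      obtain ⟨hord, hev⟩ := hevb P hPZ z hz1 hz2
      have hg := hglue P hPZ hfix hgl
      unfold Glue at hg
      rw [Pi.one_apply, one_mul] at hg
      exact (ev_eq_zero_iff P hord).1 (by rw [hev, hg, sub_self])
  have h3 : (z.1, X.Φs z.1) ∈ R := hα _ hz1
  have h4 := R.add_mem h3 ((hmemI _).1 hc)
  have h5 : (z.1, X.Φs z.1) + ((0 : Fb), z.2 - X.Φs z.1) = z := by
    ext <;> simp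
  rwa [h5] at h4

end Fermat.Agent.DR.Nodal
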