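import Fermat.Agent.DR.Abs.Nodal.Bridge

/-!
# DR/Abs/Nodal: connectedness of the dual graph of a pair, from the number of nodes

For two components the dual graph is connected iff there is a node, and
`#nodes = g - 2 g' + 1`.  So `IsNodal` follows from `g ≠ 2 g' - 1` (for `X₀(q M')`, `M'` neat:
`g - 2 g' + 1 = (q - 1) ψ(M') / 12 > 0` by the genus formula).
-/

set_option autoImplicit false

noncomputable section

namespace Fermat.Agent.DR.Nodal

open AlgebraicCurve Fermat.Agent.Lib.RR Fermat.Agent.Lib.PlaceEval Fermat.Agent.GAL.RED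
open Fermat.Agent.DR.Abs (MultiRed NodeData IsPreNodal IsNodal bipole)

variable {K F k Fb : Type*} [Field K] [Field F] [Algebra K F] [Field k] [Field Fb] [Algebra k Fb]
variable [IsFF K F] [IsAlgClosed K] [IsFF k Fb] [IsAlgClosed k]
variable {T : MultiRed K F k (fun _ : Fin 2 => Fb)} {x : F} {X : Frob k Fb} {σ : Fb}

namespace PairHyp

variable (h : PairHyp T x X σ)

include h

theorem nodes_nonempty (hg : (genusFF K F : ℤ) ≠ 2 * genusFF k Fb - 1) :
    h.filt.nodes.Nonempty := by
  by_contra hne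
  rw [Set.not_nonempty_iff_eq_empty] at hne
  have := h.ncard_nodes
  rw [hne, Set.ncard_empty] at this
  apply hg
  push_cast at this
  linarith

theorem connected (hg : (genusFF K F : ℤ) ≠ 2 * genusFF k Fb - 1) : h.nodeData.Connected := by
  obtain ⟨P, hP⟩ := h.nodes_nonempty hg
  intro c hc
  have h01 : c 0 = c 1 := hc ⟨P, hP⟩
  intro i j
  fin_cases i <;> fin_cases j <;> simp [h01]

/-- **Output of Part B + (E)**. -/
theorem isNodal (hg : (genusFF K F : ℤ) ≠ 2 * genusFF k Fb - 1) :
    ∃ a₀ : ℕ, IsNodal T x h.nodeData a₀ := by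
  obtain ⟨a₀, h₀⟩ := h.isPreNodal
  exact ⟨a₀, { toIsPreNodal := h₀, conn := h.connected hg }⟩

end PairHyp

end Fermat.Agent.DR.Nodal
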