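import Fermat.Agent.Lib.PlaceEval
import Fermat.Agent.GAL.FF.RH.Approx

/-!
# DR/Abs/Nodal: the residual (characteristic `q`) part of the DR plan, steps (2), (3), (4).  Definitions.

Everything lives over the algebraically closed field `k` on `Fb × Fb`, `Fb / k` a function field
(curve `C`).  No valuation on a field of characteristic `0` occurs in this directory.

* `Frob k Fb` : a "relative Frobenius": `Φs : Fb →ₐ[k] Fb` (`= Φ^*`), `Φ` on places,
  `ord_P (Φ^* u) = q * ord_{Φ P} u`.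
* `regOut Z` : functions regular outside the set of places `Z`.
* `Glue X δ P z` : the gluing condition `z.1 (Φ P) = δ_P * z.2 (P)`.
* `Gam X NN δ D` : pairs in `L(D) × L(D)`, regular at the nodes, satisfying the gluing conditions
  at all `P ∈ NN`  (sections of a line bundle on the nodal curve `C ∪ C / (Φ P ~ P)`).
* `Filt X σ` : the filtration `H a = red₂ L(a (x)_∞)`, `x = α^* ξ * β^* ξ` the `w`-invariant coordinate
  (design v2 (D) of helper77), `red₂ x = (σ, σ)`, `σ = ξbar ^ (q + 1)`, with the properties delivered by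
  DR/Conc + step (1).
* `Filt.nodes` : the set of nodes.
-/

set_option autoImplicit false

noncomputable section

namespace Fermat.Agent.DR.Nodal

open AlgebraicCurve Fermat.Agent.Lib.RR Fermat.Agent.Lib.PlaceEval Fermat.Agent.GAL.RED

/-- A relative Frobenius on the function field `Fb / k`. -/
structure Frob (k Fb : Type*) [Field k] [Field Fb] [Algebra k Fb] where
  /-- the degree -/
  q : ℕ
  two_le : 2 ≤ q
  /-- `Φ^*` -/
  Φs : Fb →ₐ[k] Fb
  /-- `Φ` on places -/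
  Φ : Place k Fb → Place k Fb
  ord_Φs : ∀ (P : Place k Fb) (u : Fb), P.ord (Φs u) = q * (Φ P).ord u

variable {k Fb : Type*} [Field k] [Field Fb] [Algebra k Fb]

/-- the poles of `σ` -/
def polesOf (σ : Fb) : Set (Place k Fb) := {P | P.ord σ < 0}

/-- the zeros of `σ` -/
def zerosOf (σ : Fb) : Set (Place k Fb) := {P | 0 < P.ord σ}

/-- The ring of functions which are regular outside `Z`. -/
def regOut (Z : Set (Place k Fb)) : Subalgebra k Fb where
  carrier := {u | ∀ P : Place k Fb, P ∉ Z → u ∈ P.toValuationSubring}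
  mul_mem' := fun ha hb P hP => P.toValuationSubring.mul_mem _ _ (ha P hP) (hb P hP)
  add_mem' := fun ha hb P hP => P.toValuationSubring.add_mem _ _ (ha P hP) (hb P hP)
  algebraMap_mem' := fun a P _ => P.algebraMap_mem' a

theorem mem_regOut {Z : Set (Place k Fb)} {u : Fb} :
    u ∈ regOut Z ↔ ∀ P : Place k Fb, P ∉ Z → u ∈ P.toValuationSubring := Iff.rfl

variable [IsFF k Fb] [IsAlgClosed k]

/-- The gluing condition at `P`: `z.1 (Φ P) = δ_P * z.2 (P)`. -/
def Glue (X : Frob k Fb) (δ : Place k Fb → k) (P : Place k Fb) (z : Fb × Fb) : Prop :=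
  ev (X.Φ P) z.1 = δ P * ev P z.2

/-- Pairs in `L(D) × L(D)`, regular at the nodes, glued along `NN` with the twist `δ`. -/
def Gam (X : Frob k Fb) (NN : Set (Place k Fb)) (δ : Place k Fb → k) (D : Divisor k Fb) :
    Submodule k (Fb × Fb) where
  carrier := {z | z.1 ∈ riemannRochSpace D ∧ z.2 ∈ riemannRochSpace D ∧
    ∀ P ∈ NN, z.1 ∈ (X.Φ P).toValuationSubring ∧ z.2 ∈ P.toValuationSubring ∧ Glue X δ P z}
  zero_mem' := ⟨Submodule.zero_mem _, Submodule.zero_mem _, fun P _ =>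
    ⟨zero_mem _, zero_mem _, by simp [Glue]⟩⟩
  add_mem' := by
    rintro z w ⟨hz1, hz2, hz⟩ ⟨hw1, hw2, hw⟩
    refine ⟨Submodule.add_mem _ hz1 hw1, Submodule.add_mem _ hz2 hw2, fun P hP => ?_⟩
    obtain ⟨a1, a2, a3⟩ := hz P hP
    obtain ⟨b1, b2, b3⟩ := hw P hP
    refine ⟨add_mem a1 b1, add_mem a2 b2, ?_⟩
    unfold Glue at *
    rw [Prod.fst_add, Prod.snd_add, ev_add _ ((mem_iff _).1 a1) ((mem_iff _).1 b1),
      ev_add _ ((mem_iff _).1 a2) ((mem_iff _).1 b2), a3, b3, mul_add]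
  smul_mem' := by
    rintro c z ⟨hz1, hz2, hz⟩
    refine ⟨Submodule.smul_mem _ c hz1, Submodule.smul_mem _ c hz2, fun P hP => ?_⟩
    obtain ⟨a1, a2, a3⟩ := hz P hP
    refine ⟨?_, ?_, ?_⟩
    · rw [Prod.smul_fst, Algebra.smul_def]
      exact mul_mem ((X.Φ P).algebraMap_mem' c) a1
    · rw [Prod.smul_snd, Algebra.smul_def]
      exact mul_mem (P.algebraMap_mem' c) a2
    · unfold Glue at *
      rw [Prod.smul_fst, Prod.smul_snd, ev_smul, ev_smul, a3]
      ring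

theorem mem_Gam {X : Frob k Fb} {NN : Set (Place k Fb)} {δ : Place k Fb → k} {D : Divisor k Fb}
    {z : Fb × Fb} : z ∈ Gam X NN δ D ↔ z.1 ∈ riemannRochSpace D ∧ z.2 ∈ riemannRochSpace D ∧
      ∀ P ∈ NN, z.1 ∈ (X.Φ P).toValuationSubring ∧ z.2 ∈ P.toValuationSubring ∧ Glue X δ P z :=
  Iff.rfl

/-- The polar divisor of `σ`. -/
abbrev Dinf (σ : Fb) : Divisor k Fb := poleDiv (K := k) σ

/-- **The input of the block** (delivered by step (1) + DR/Conc): the filtration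
`H a = red₂ L(a (x)_∞)` of the coordinate ring of the special fibre, `red₂ x = (σ, σ)`. -/
structure Filt (X : Frob k Fb) (σ : Fb) where
  /-- `H a = red₂ L(a (x)_∞)` -/
  H : ℕ → Submodule k (Fb × Fb)
  /-- the genus of the generic fibre -/
  g : ℤ
  Φs_σ : X.Φs σ = σ ^ X.q
  pole : ∃ P : Place k Fb, P.ord σ < 0
  le_B : ∀ a, ∀ z ∈ H a, z.1 ∈ riemannRochSpace (a • Dinf (k := k) σ) ∧
    z.2 ∈ riemannRochSpace (a • Dinf (k := k) σ)
  mono : Monotone H
  one_mem : (1 : Fb × Fb) ∈ H 0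
  mul_mem : ∀ a b, ∀ z ∈ H a, ∀ w ∈ H b, z * w ∈ H (a + b)
  S_mem : (σ, σ) ∈ H 1
  swap_mem : ∀ a, ∀ z ∈ H a, z.swap ∈ H a
  dim : ∃ a₀ : ℕ, ∀ a, a₀ ≤ a → (Module.finrank k (H a) : ℤ)
    = 2 * a * Divisor.degree (Dinf (k := k) σ) + 1 - g
  /-- `red₂ (α^* ũ) = (u, Φ^* u)`, `ũ` regular outside the poles of `ξ` -/
  alpha : ∀ u ∈ regOut (polesOf (k := k) σ), ∃ a, (u, X.Φs u) ∈ H a
  /-- the same for `ũ` regular outside the zeros of `ξ` -/
  alpha_inf : ∀ u ∈ regOut (zerosOf (k := k) σ), ∃ b, (σ ^ b * u, σ ^ b * X.Φs u) ∈ H b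
  /-- the fixed points of `Φ²` are neither zeros nor poles of `σ` (choice (D) of the coordinate) -/
  fix_unit : ∀ P : Place k Fb, X.Φ (X.Φ P) = P → P.ord σ = 0

/-- The nodes: the fixed points of `Φ²` at which all elements of
`⋃ H a` are glued. -/
def Filt.nodes {X : Frob k Fb} {σ : Fb} (𝓗 : Filt X σ) : Set (Place k Fb) :=
  {P | 0 ≤ P.ord σ ∧ X.Φ (X.Φ P) = P ∧ ∀ a, ∀ w ∈ 𝓗.H a, Glue X 1 P w}

/-- Multiplication by `(σ, σ)`. -/
def mulS (σ : Fb) : (Fb × Fb) →ₗ[k] (Fb × Fb) := LinearMap.mulLeft k ((σ, σ) : Fb × Fb)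

@[simp] theorem mulS_apply (σ : Fb) (z : Fb × Fb) : mulS (k := k) σ z = (σ * z.1, σ * z.2) := rfl

end Fermat.Agent.DR.Nodal
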