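import Fermat.Agent.DR.Abs.Nodal.Approx
import Fermat.Agent.DR.Abs.Nodal.FrobBasic

/-!
# DR/Abs/Nodal, leaf DIM: the dimension of `Gam X NN δ D`
-/

set_option autoImplicit false

noncomputable section

namespace Fermat.Agent.DR.Nodal

open AlgebraicCurve Fermat.Agent.Lib.RR Fermat.Agent.Lib.PlaceEval Fermat.Agent.GAL.RED

variable {k Fb : Type*} [Field k] [Field Fb] [Algebra k Fb] [IsFF k Fb] [IsAlgClosed k]
variable (X : Frob k Fb)

/-- the inclusion `Gam ⊆ L(D) × L(D)`. -/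
def Dim_toLL (NN : Set (Place k Fb)) (δ : Place k Fb → k) (D : Divisor k Fb) :
    Gam X NN δ D →ₗ[k] riemannRochSpace D × riemannRochSpace D where
  toFun z := (⟨z.1.1, z.2.1⟩, ⟨z.1.2, z.2.2.1⟩)
  map_add' _ _ := rfl
  map_smul' _ _ := rfl

theorem Dim_toLL_injective (NN : Set (Place k Fb)) (δ : Place k Fb → k) (D : Divisor k Fb) :
    Function.Injective (Dim_toLL X NN δ D) := by
  intro z w h
  apply Subtype.ext
  have h1 := congrArg (fun t : riemannRochSpace D × riemannRochSpace D => (t.1 : Fb)) h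
  have h2 := congrArg (fun t : riemannRochSpace D × riemannRochSpace D => (t.2 : Fb)) h
  exact Prod.ext h1 h2

/-- `Gam ⊆ L(D) × L(D)` is finite dimensional (`Lib.RR`: `L(D)` is finite dimensional). -/
instance finite_Gam (NN : Set (Place k Fb)) (δ : Place k Fb → k) (D : Divisor k Fb) :
    Module.Finite k (Gam X NN δ D) :=
  Module.Finite.of_injective (Dim_toLL X NN δ D) (Dim_toLL_injective X NN δ D)

omit [IsFF k Fb] [IsAlgClosed k] in
/-- elements of `L(D)` are regular outside the support of `D`. -/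
theorem Dim_ord_nonneg {D : Divisor k Fb} {Q : Place k Fb} (hQ : D Q = 0) {u : Fb}
    (hu : u ∈ riemannRochSpace D) : 0 ≤ Q.ord u := by
  rcases (mem_riemannRochSpace_iff.mp hu) Q with rfl | h
  · simp
  · rwa [hQ, neg_zero] at h

/-- prescribed values at the nodes: choose `z.2 ∈ L(D)` with `z.2 (P) = c P` and `z.1 ∈ L(D)` with
`z.1 (Φ P) = δ P * c P` (`exists_mem_L_ev` twice; `Φ` is injective on `NN`). -/
theorem exists_mem_Gam_ev (NN : Set (Place k Fb)) (hNN : NN.Finite) (δ : Place k Fb → k)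
    (hΦ : Set.InjOn X.Φ NN) (D : Divisor k Fb) (hD : ∀ P ∈ NN, D P = 0 ∧ D (X.Φ P) = 0)
    (hdeg : 2 * (genusFF k Fb : ℤ) - 2 + NN.ncard < Divisor.degree D) (c : Place k Fb → k) :
    ∃ z ∈ Gam X NN δ D, ∀ P ∈ NN, ev P z.2 = c P := by
  classical
  have hne : Nonempty (Place k Fb) := IsPreFF.nonempty
  have hcard : hNN.toFinset.card = NN.ncard := (Set.ncard_eq_toFinset_card NN hNN).symm
  obtain ⟨v, hvL, hv⟩ := exists_mem_L_ev D hNN.toFinset
    (fun P hP => (hD P (hNN.mem_toFinset.mp hP)).1) (by rw [hcard]; exact hdeg) c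
  have hcard' : (hNN.toFinset.image X.Φ).card = NN.ncard := by
    rw [Finset.card_image_of_injOn, hcard]
    rwa [Set.Finite.coe_toFinset]
  obtain ⟨u, huL, hu⟩ := exists_mem_L_ev D (hNN.toFinset.image X.Φ)
    (fun Q hQ => by
      obtain ⟨P, hP, rfl⟩ := Finset.mem_image.mp hQ
      exact (hD P (hNN.mem_toFinset.mp hP)).2) (by rw [hcard']; exact hdeg)
    (fun Q => δ (Function.invFunOn X.Φ NN Q) * c (Function.invFunOn X.Φ NN Q))
  refine ⟨(u, v), ⟨huL, hvL, fun P hP => ⟨?_, ?_, ?_⟩⟩, fun P hP => hv P (hNN.mem_toFinset.mpr hP)⟩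
  · exact (mem_iff _).mpr (Dim_ord_nonneg (hD P hP).2 huL)
  · exact (mem_iff _).mpr (Dim_ord_nonneg (hD P hP).1 hvL)
  · unfold Glue
    have h1 := hu (X.Φ P) (Finset.mem_image_of_mem _ (hNN.mem_toFinset.mpr hP))
    rw [hΦ.leftInvOn_invFunOn hP] at h1
    change ev (X.Φ P) u = δ P * ev P v
    rw [h1, hv P (hNN.mem_toFinset.mpr hP)]

/-- evaluation on `L(D)` at a place outside the support of `D`. -/
def Dim_evL (D : Divisor k Fb) (Q : Place k Fb) (hQ : D Q = 0) : riemannRochSpace D →ₗ[k] k where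
  toFun u := ev Q (u : Fb)
  map_add' u v := ev_add Q (Dim_ord_nonneg hQ u.2) (Dim_ord_nonneg hQ v.2)
  map_smul' a u := ev_smul Q a (u : Fb)

/-- the gluing map `L(D) × L(D) → k^NN`. -/
def Dim_glue (NN : Set (Place k Fb)) (δ : Place k Fb → k) (D : Divisor k Fb)
    (hD : ∀ P ∈ NN, D P = 0 ∧ D (X.Φ P) = 0) :
    (riemannRochSpace D × riemannRochSpace D) →ₗ[k] (NN → k) :=
  LinearMap.pi fun P : NN =>
    (Dim_evL D (X.Φ P) (hD P P.2).2).comp (LinearMap.fst k _ _)
      - δ P • (Dim_evL D P (hD P P.2).1).comp (LinearMap.snd k _ _)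

theorem Dim_glue_apply (NN : Set (Place k Fb)) (δ : Place k Fb → k) (D : Divisor k Fb)
    (hD : ∀ P ∈ NN, D P = 0 ∧ D (X.Φ P) = 0) (t : riemannRochSpace D × riemannRochSpace D)
    (P : NN) : Dim_glue X NN δ D hD t P = ev (X.Φ P) (t.1 : Fb) - δ P * ev (P : Place k Fb) (t.2 : Fb) :=
  rfl

theorem Dim_range_toLL (NN : Set (Place k Fb)) (δ : Place k Fb → k) (D : Divisor k Fb)
    (hD : ∀ P ∈ NN, D P = 0 ∧ D (X.Φ P) = 0) :
    LinearMap.range (Dim_toLL X NN δ D) = LinearMap.ker (Dim_glue X NN δ D hD) := by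
  ext t
  rw [LinearMap.mem_range, LinearMap.mem_ker]
  constructor
  · rintro ⟨z, rfl⟩
    funext P
    rw [Dim_glue_apply, Pi.zero_apply, sub_eq_zero]
    exact (z.2.2.2 P P.2).2.2
  · intro h
    refine ⟨⟨((t.1 : Fb), (t.2 : Fb)), t.1.2, t.2.2, fun P hP => ⟨?_, ?_, ?_⟩⟩, rfl⟩
    · exact (mem_iff _).mpr (Dim_ord_nonneg (hD P hP).2 t.1.2)
    · exact (mem_iff _).mpr (Dim_ord_nonneg (hD P hP).1 t.2.2)
    · have h1 := congrFun h ⟨P, hP⟩
      rw [Dim_glue_apply, Pi.zero_apply, sub_eq_zero] at h1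
      exact h1

theorem Dim_glue_surjective (NN : Set (Place k Fb)) (hNN : NN.Finite) (δ : Place k Fb → k)
    (hδ : ∀ P ∈ NN, δ P ≠ 0) (D : Divisor k Fb) (hD : ∀ P ∈ NN, D P = 0 ∧ D (X.Φ P) = 0)
    (hdeg : 2 * (genusFF k Fb : ℤ) - 2 + NN.ncard < Divisor.degree D) :
    Function.Surjective (Dim_glue X NN δ D hD) := by
  classical
  intro c
  have hcard : hNN.toFinset.card = NN.ncard := (Set.ncard_eq_toFinset_card NN hNN).symm
  obtain ⟨v, hvL, hv⟩ := exists_mem_L_ev D hNN.toFinset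
    (fun P hP => (hD P (hNN.mem_toFinset.mp hP)).1) (by rw [hcard]; exact hdeg)
    (fun P => if h : P ∈ NN then -(δ P)⁻¹ * c ⟨P, h⟩ else 0)
  refine ⟨(0, ⟨v, hvL⟩), ?_⟩
  funext P
  rw [Dim_glue_apply]
  change ev (X.Φ P) (0 : Fb) - δ P * ev (P : Place k Fb) v = c P
  rw [hv P (hNN.mem_toFinset.mpr P.2), dif_pos P.2, ev_zero]
  have h0 := hδ P P.2
  field_simp
  simp

/-- **Dimension formula.**  `Gam` is the kernel of the linear map
`L(D) × L(D) → (NN → k)`, `z ↦ (z.1 (Φ P) - δ P * z.2 (P))_P`, which is onto already on `0 × L(D)`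
(`exists_mem_L_ev`, `δ P ≠ 0`); `dim L(D) = deg D + 1 - g'` (`ell_eq_of_lt_degree'`);
rank-nullity. -/
theorem finrank_Gam (NN : Set (Place k Fb)) (hNN : NN.Finite) (δ : Place k Fb → k)
    (hδ : ∀ P ∈ NN, δ P ≠ 0) (D : Divisor k Fb) (hD : ∀ P ∈ NN, D P = 0 ∧ D (X.Φ P) = 0)
    (hdeg : 2 * (genusFF k Fb : ℤ) - 2 + NN.ncard < Divisor.degree D) :
    (Module.finrank k (Gam X NN δ D) : ℤ)
      = 2 * (Divisor.degree D + 1 - genusFF k Fb) - NN.ncard := by
  classical
  have : Fintype NN := hNN.fintype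
  have h1 : Module.finrank k (Gam X NN δ D)
      = Module.finrank k (LinearMap.ker (Dim_glue X NN δ D hD)) := by
    rw [← Dim_range_toLL, LinearMap.finrank_range_of_inj (Dim_toLL_injective X NN δ D)]
  have h2 := LinearMap.finrank_range_add_finrank_ker (Dim_glue X NN δ D hD)
  rw [LinearMap.range_eq_top.mpr (Dim_glue_surjective X NN hNN δ hδ D hD hdeg), finrank_top,
    Module.finrank_prod, Module.finrank_fintype_fun_eq_card, ← h1] at h2
  have h3 : Fintype.card NN = NN.ncard := by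
    rw [Set.ncard_eq_toFinset_card', Set.toFinset_card]
  have h4 : (ell D : ℤ) = Divisor.degree D + 1 - genusFF k Fb := by
    apply ell_eq_of_lt_degree'
    have : (0 : ℤ) ≤ NN.ncard := Int.natCast_nonneg _
    omega
  have h5 : Module.finrank k (riemannRochSpace D) = ell D := rfl
  rw [h3, h5] at h2
  have h6 : ((NN.ncard : ℤ) + (Module.finrank k (Gam X NN δ D) : ℤ)) = (ell D : ℤ) + ell D := by
    exact_mod_cast h2
  rw [h4] at h6
  linarith

end Fermat.Agent.DR.Nodal
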