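import Fermat.Agent.DR.Abs.Nodal.Approx

/-!
# DR/Abs/Nodal, leaf IL: an ideal of `regOut Z` is determined by its local orders
-/

set_option autoImplicit false

noncomputable section

namespace Fermat.Agent.DR.Nodal

open AlgebraicCurve Fermat.Agent.Lib.RR Fermat.Agent.Lib.PlaceEval Fermat.Agent.GAL.RED

variable {k Fb : Type*} [Field k] [Field Fb] [Algebra k Fb]

/-- `f = 0` or `n ≤ ord_P f` is stable under addition. -/
theorem Ideal_ge_add (P : Place k Fb) (n : ℤ) {f g : Fb} (hf : f = 0 ∨ n ≤ P.ord f)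
    (hg : g = 0 ∨ n ≤ P.ord g) : f + g = 0 ∨ n ≤ P.ord (f + g) := by
  by_cases h : f + g = 0
  · exact Or.inl h
  right
  rcases hf with rfl | hf
  · rcases hg with rfl | hg
    · simp at h
    · rwa [zero_add]
  rcases hg with rfl | hg
  · rwa [add_zero]
  exact le_trans (le_min hf hg) (min_le_ord_add P h)

/-- `f = 0` or `n ≤ ord_P f` is stable under finite sums. -/
theorem Ideal_ge_sum {ι : Type*} (P : Place k Fb) (n : ℤ) (s : Finset ι) (f : ι → Fb)
    (hf : ∀ i ∈ s, f i = 0 ∨ n ≤ P.ord (f i)) :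
    ∑ i ∈ s, f i = 0 ∨ n ≤ P.ord (∑ i ∈ s, f i) := by
  classical
  induction s using Finset.induction_on with
  | empty => left; simp
  | insert a s ha ih =>
    rw [Finset.sum_insert ha]
    exact Ideal_ge_add P n (hf a (Finset.mem_insert_self a s))
      (ih fun i hi => hf i (Finset.mem_insert_of_mem hi))

variable [IsFF k Fb] [IsAlgClosed k]

/-- Let `I` be an ideal of `B = regOut Z` which contains, for every `P ∉ Z`, an element of order
`δ_P` at `P`, `δ_P = 1` for `P ∈ NN`, `δ_P = 0` otherwise.  Then `I` contains every `c ∈ B` vanishing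
on `NN`.

Proof.  `g ∈ I`, `g ≠ 0`; `T` := the (finite) set of zeros of `g` outside `Z`
(subset of `(divOf g).support`), `e` := max of `ord_P g`, `P ∈ T`.
For `P ∈ T` let `h_P ∈ I` with `ord_P h_P = δ_P` and `b_P` from `exists_bump` (`e := 2`);
`h := ∑_{P ∈ T} b_P h_P ∈ I` has `ord_P h = δ_P` for all `P ∈ T` (the other terms have order `≥ 2`;
`RED.ord_add_eq_of_lt`, `RED.min_le_ord_add`).  By `exists_strong_approx` there is `y ∈ B` with
`ord_P (y - c / h) ≥ e` on `T` (`c / h` is regular at `P`).  Then `x := (c - y h) / g` is regular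
outside `Z`: on `T` because `ord_P (c - y h) = ord_P h + ord_P (c / h - y) ≥ e ≥ ord_P g`, elsewhere
because `g` is a unit there.  `c = x g + y h ∈ I`. -/
theorem mem_ideal_of_local (Z : Set (Place k Fb)) (hZ : Z.Nonempty)
    (I : Submodule k Fb) (hIZ : ∀ c ∈ I, c ∈ regOut Z) (hI : ∀ u ∈ regOut Z, ∀ c ∈ I, u * c ∈ I)
    (NN : Set (Place k Fb))
    (h0 : ∀ P, P ∉ Z → P ∉ NN → ∃ h ∈ I, h ≠ 0 ∧ P.ord h = 0)
    (h1 : ∀ P ∈ NN, ∃ h ∈ I, P.ord h = 1)
    (hne : ∃ g ∈ I, g ≠ 0)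
    {c : Fb} (hc : c ∈ regOut Z) (hcN : ∀ P ∈ NN, c = 0 ∨ 0 < P.ord c) : c ∈ I := by
  classical
  rcases eq_or_ne c 0 with rfl | hc0
  · exact I.zero_mem
  obtain ⟨g, hgI, hg0⟩ := hne
  have hreg : ∀ u ∈ regOut Z, ∀ P, P ∉ Z → 0 ≤ P.ord u := fun u hu P hP => (mem_iff P).1 (hu P hP)
  set T : Finset (Place k Fb) := (divOf (K := k) g).support.filter (fun P => P ∉ Z) with hTdef
  have hTZ : ∀ P ∈ T, P ∉ Z := fun P hP => (Finset.mem_filter.1 hP).2
  have hTmem : ∀ P, P ∉ Z → P ∉ T → P.ord g = 0 := by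
    intro P hPZ hPT
    by_contra hne
    apply hPT
    rw [hTdef, Finset.mem_filter, Finsupp.mem_support_iff, divOf_apply]
    exact ⟨hne, hPZ⟩
  set e : ℤ := ∑ P ∈ T, P.ord g with hedef
  have hge : ∀ P ∈ T, P.ord g ≤ e := fun P hP =>
    Finset.single_le_sum (f := fun P : Place k Fb => P.ord g)
      (fun Q hQ => hreg g (hIZ g hgI) Q (hTZ Q hQ)) hP
  have he0 : 0 ≤ e := Finset.sum_nonneg fun Q hQ => hreg g (hIZ g hgI) Q (hTZ Q hQ)
  let δ : Place k Fb → ℤ := fun P => if P ∈ NN then 1 else 0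
  have hδ0 : ∀ P, 0 ≤ δ P := fun P => by simp only [δ]; split_ifs <;> norm_num
  have hδ1 : ∀ P, δ P ≤ 1 := fun P => by simp only [δ]; split_ifs <;> norm_num
  have hex : ∀ P : Place k Fb, ∃ h : Fb, P ∈ T → h ∈ I ∧ h ≠ 0 ∧ P.ord h = δ P := by
    intro P
    by_cases hP : P ∈ T
    · by_cases hN : P ∈ NN
      · obtain ⟨h, hhI, hh⟩ := h1 P hN
        refine ⟨h, fun _ => ⟨hhI, ?_, by simp only [δ, if_pos hN, hh]⟩⟩
        rintro rfl
        rw [Place.ord_zero] at hh
        exact zero_ne_one hh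
      · obtain ⟨h, hhI, hh0, hh⟩ := h0 P (hTZ P hP) hN
        exact ⟨h, fun _ => ⟨hhI, hh0, by simp only [δ, if_neg hN, hh]⟩⟩
    · exact ⟨0, fun h => absurd h hP⟩
  choose hh hhspec using hex
  have hexb : ∀ P : Place k Fb, ∃ b : Fb, P ∈ T → b ∈ regOut Z ∧ b ≠ 0 ∧ P.ord b = 0 ∧
      ∀ Q ∈ T, Q ≠ P → 2 ≤ Q.ord b := by
    intro P
    by_cases hP : P ∈ T
    · obtain ⟨b, hb1, hb2, hb3, hb4⟩ := exists_bump Z hZ T hTZ P hP 2
      exact ⟨b, fun _ => ⟨hb1, hb2, hb3, hb4⟩⟩
    · exact ⟨0, fun h => absurd h hP⟩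
  choose bb bbspec using hexb
  set h : Fb := ∑ P ∈ T, bb P * hh P with hhdef
  have hhI : h ∈ I := I.sum_mem fun P hP => hI _ (bbspec P hP).1 _ (hhspec P hP).1
  have hclaim : ∀ P ∈ T, h ≠ 0 ∧ P.ord h = δ P := by
    intro P hP
    obtain ⟨a1, a2, a3⟩ := hhspec P hP
    obtain ⟨b1, b2, b3, -⟩ := bbspec P hP
    have hsplit : h = bb P * hh P + ∑ Q ∈ T.erase P, bb Q * hh Q := by
      rw [hhdef, Finset.add_sum_erase T (fun Q => bb Q * hh Q) hP]
    have hmain0 : bb P * hh P ≠ 0 := mul_ne_zero b2 a2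
    have hmain : P.ord (bb P * hh P) = δ P := by rw [P.ord_mul b2 a2, b3, a3, zero_add]
    have hrest := Ideal_ge_sum P 2 (T.erase P) (fun Q => bb Q * hh Q) (by
      intro Q hQ
      right
      obtain ⟨hQP, hQT⟩ := Finset.mem_erase.1 hQ
      obtain ⟨c1, c2, -⟩ := hhspec Q hQT
      obtain ⟨d1, d2, -, d4⟩ := bbspec Q hQT
      rw [P.ord_mul d2 c2]
      have := d4 P hP (Ne.symm hQP)
      have := hreg _ (hIZ _ c1) P (hTZ P hP)
      omega)
    rcases hrest with hr | hr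
    · rw [hsplit, hr, add_zero]
      exact ⟨hmain0, hmain⟩
    · by_cases hr0 : ∑ Q ∈ T.erase P, bb Q * hh Q = 0
      · rw [hsplit, hr0, add_zero]
        exact ⟨hmain0, hmain⟩
      have hlt : P.ord (bb P * hh P) < P.ord (∑ Q ∈ T.erase P, bb Q * hh Q) := by
        have := hδ1 P
        omega
      refine ⟨?_, by rw [hsplit, ord_add_eq_of_lt P hmain0 hr0 hlt, hmain]⟩
      intro h0'
      rw [hsplit] at h0'
      have : ∑ Q ∈ T.erase P, bb Q * hh Q = -(bb P * hh P) := by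
        rw [eq_neg_iff_add_eq_zero, add_comm]
        exact h0'
      rw [this, ord_neg] at hlt
      exact lt_irrefl _ hlt
  have hf : ∀ P ∈ T, 0 ≤ P.ord (c / h) := by
    intro P hP
    obtain ⟨k1, k2⟩ := hclaim P hP
    rw [ord_div P hc0 k1, k2]
    by_cases hN : P ∈ NN
    · have := (hcN P hN).resolve_left hc0
      have := hδ1 P
      omega
    · have : δ P = 0 := by simp only [δ, if_neg hN]
      have := hreg c hc P (hTZ P hP)
      omega
  -- (robust against the position / presence of the regularity hypothesis `hf` in `Approx.lean`)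
  have key : ∃ y ∈ regOut Z, ∀ P ∈ T, y = c / h ∨ e ≤ P.ord (y - c / h) := by
    first
    | exact exists_strong_approx Z hZ T hTZ (fun _ => c / h) hf e
    | exact exists_strong_approx Z hZ T hTZ (fun _ => c / h) e hf
    | exact exists_strong_approx Z hZ T hTZ (fun _ => c / h) e
  obtain ⟨y, hy, hyT⟩ := key
  have hyh : y * h ∈ I := hI y hy h hhI
  have hnum : c - y * h ∈ regOut Z := sub_mem hc (hIZ _ hyh)
  have hx : (c - y * h) / g ∈ regOut Z := by
    intro P hPZ
    rw [mem_iff]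
    by_cases hn0 : c - y * h = 0
    · rw [hn0, zero_div, Place.ord_zero]
    rw [ord_div P hn0 hg0]
    by_cases hP : P ∈ T
    · obtain ⟨k1, k2⟩ := hclaim P hP
      have hfac : c - y * h = -(h * (y - c / h)) := by
        field_simp
        ring
      have hyc : y - c / h ≠ 0 := by
        intro h0'
        apply hn0
        rw [hfac, h0', mul_zero, neg_zero]
      have hord := (hyT P hP).resolve_left (fun h' => hyc (sub_eq_zero.2 h'))
      rw [hfac, ord_neg, P.ord_mul k1 hyc, k2]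
      have := hge P hP
      have := hδ0 P
      omega
    · rw [hTmem P hPZ hP, sub_zero]
      exact hreg _ hnum P hPZ
  have hfinal : c = (c - y * h) / g * g + y * h := by
    field_simp
    ring
  rw [hfinal]
  exact I.add_mem (hI _ hx g hgI) hyh

end Fermat.Agent.DR.Nodal
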