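import Fermat.Agent.DR.Abs.Nodal.Dim

/-!
# DR/Abs/Nodal, leaf PT: the base point free pencil trick on the nodal curve
-/

set_option autoImplicit false

noncomputable section

namespace Fermat.Agent.DR.Nodal

open AlgebraicCurve Fermat.Agent.Lib.RR Fermat.Agent.Lib.PlaceEval Fermat.Agent.GAL.RED

variable {k Fb : Type*} [Field k] [Field Fb] [Algebra k Fb] [IsFF k Fb] [IsAlgClosed k]
variable (X : Frob k Fb)

/-- `Gam` is monotone in `a`. -/
theorem Gam_mono (σ : Fb) (NN : Set (Place k Fb)) (δ : Place k Fb → k) :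
    Monotone fun a : ℕ => Gam X NN δ (a • Dinf (k := k) σ) := by
  intro a b hab z hz
  exact ⟨L_Dinf_mono hab hz.1, L_Dinf_mono hab hz.2.1, hz.2.2⟩

/-- multiplication by `(σ, σ)` maps `Γ(a)` to `Γ(a+1)` (`mul_σ_mem_L`, `ev_mul`, `hσ`). -/
theorem map_mulS_Gam_le (σ : Fb) (NN : Set (Place k Fb)) (δ : Place k Fb → k)
    (hreg : ∀ P ∈ NN, 0 ≤ P.ord σ ∧ 0 ≤ (X.Φ P).ord σ)
    (hσ : ∀ P ∈ NN, ev (X.Φ P) σ = ev P σ) (a : ℕ) :
    (Gam X NN δ (a • Dinf (k := k) σ)).map (mulS σ) ≤ Gam X NN δ ((a + 1) • Dinf (k := k) σ) := by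
  rintro _ ⟨z, hz, rfl⟩
  refine ⟨mul_σ_mem_L hz.1, mul_σ_mem_L hz.2.1, fun P hP => ?_⟩
  obtain ⟨a1, a2, a3⟩ := hz.2.2 P hP
  obtain ⟨r1, r2⟩ := hreg P hP
  refine ⟨mul_mem ((mem_iff _).2 r2) a1, mul_mem ((mem_iff _).2 r1) a2, ?_⟩
  unfold Glue at *
  rw [mulS_apply]
  show ev (X.Φ P) (σ * z.1) = δ P * ev P (σ * z.2)
  rw [ev_mul _ r2 ((mem_iff _).1 a1), ev_mul _ r1 ((mem_iff _).1 a2), a3, hσ P hP]
  ring

/-- **Pencil trick.**  `Γ(a+1) = Γ(a) + S Γ(a)` for `a` large.  `⊇` is `Gam_mono`,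
`map_mulS_Gam_le`.  Dimensions: `Γ(a) ∩ S Γ(a) = S Γ(a-1)` (`mem_L_of_mul_σ_mem_L`; the gluing
conditions of `z'` are part of `z' ∈ Γ(a)`), `S` is injective (`σ ≠ 0`), so
`dim (Γ(a) + S Γ(a)) = 2 dim Γ(a) - dim Γ(a-1) = dim Γ(a+1)` by `finrank_Gam`
(`Submodule.finrank_sup_add_finrank_inf_eq`, `Submodule.eq_of_le_of_finrank_eq`).
`deg (a • Dinf σ) = a * deg (Dinf σ)`, `degree_Dinf_pos`. -/
theorem Gam_succ (σ : Fb) (hpole : ∃ P : Place k Fb, P.ord σ < 0) (NN : Set (Place k Fb))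
    (hNN : NN.Finite) (δ : Place k Fb → k) (hδ : ∀ P ∈ NN, δ P ≠ 0)
    (hreg : ∀ P ∈ NN, 0 ≤ P.ord σ ∧ 0 ≤ (X.Φ P).ord σ)
    (hσ : ∀ P ∈ NN, ev (X.Φ P) σ = ev P σ) :
    ∃ a₃ : ℕ, ∀ a, a₃ ≤ a → Gam X NN δ ((a + 1) • Dinf (k := k) σ)
      = Gam X NN δ (a • Dinf (k := k) σ) ⊔ (Gam X NN δ (a • Dinf (k := k) σ)).map (mulS σ) := by
  have hd := degree_Dinf_pos (k := k) hpole
  set d : ℤ := Divisor.degree (Dinf (k := k) σ) with hd_def
  have hσ0 : σ ≠ 0 := by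
    rintro rfl
    obtain ⟨P, hP⟩ := hpole
    rw [Place.ord_zero] at hP
    exact lt_irrefl _ hP
  have hinj : Function.Injective (mulS (k := k) σ) := by
    intro z w h
    rw [mulS_apply, mulS_apply, Prod.mk.injEq] at h
    exact Prod.ext (mul_left_cancel₀ hσ0 h.1) (mul_left_cancel₀ hσ0 h.2)
  have hmapfin : ∀ M : Submodule k (Fb × Fb),
      Module.finrank k (M.map (mulS (k := k) σ)) = Module.finrank k M := fun M =>
    (LinearEquiv.finrank_eq (Submodule.equivMapOfInjective _ hinj M)).symm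
  set c : ℤ := 2 * (genusFF k Fb : ℤ) - 2 + NN.ncard with hc
  have hdim : ∀ m : ℕ, c < m → (Module.finrank k (Gam X NN δ (m • Dinf (k := k) σ)) : ℤ)
      = 2 * (m * d + 1 - genusFF k Fb) - NN.ncard := by
    intro m hm
    have hdeg : Divisor.degree (m • Dinf (k := k) σ) = m * d := by
      rw [map_nsmul, nsmul_eq_mul]
    rw [← hdeg]
    refine finrank_Gam X NN hNN δ hδ _ (fun P hP => ?_) ?_
    · rw [Finsupp.smul_apply, Finsupp.smul_apply, Dinf_apply_of_nonneg (hreg P hP).1,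
        Dinf_apply_of_nonneg (hreg P hP).2]
      simp
    · rw [hdeg]
      have hm0 : (0 : ℤ) ≤ m := Int.natCast_nonneg m
      nlinarith
  refine ⟨c.toNat + 2, fun a ha => ?_⟩
  obtain ⟨b, rfl⟩ : ∃ b, a = b + 1 := ⟨a - 1, by omega⟩
  have hcb : c < (b : ℤ) := by
    have := Int.self_le_toNat c
    have h2 : (c.toNat : ℤ) + 1 ≤ b := by exact_mod_cast (by omega : c.toNat + 1 ≤ b)
    linarith
  have e0 := hdim b hcb
  have e1 := hdim (b + 1) (by push_cast; linarith)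
  have e2 := hdim (b + 1 + 1) (by push_cast; linarith)
  set A := Gam X NN δ ((b + 1) • Dinf (k := k) σ) with hA
  have hle : A ⊔ A.map (mulS σ) ≤ Gam X NN δ ((b + 1 + 1) • Dinf (k := k) σ) :=
    sup_le (Gam_mono X σ NN δ (Nat.le_succ (b + 1))) (map_mulS_Gam_le X σ NN δ hreg hσ (b + 1))
  have hinf : A ⊓ A.map (mulS σ) ≤ (Gam X NN δ (b • Dinf (k := k) σ)).map (mulS σ) := by
    rintro w ⟨hw, z, hz, rfl⟩
    refine ⟨z, ⟨mem_L_of_mul_σ_mem_L hz.1 hw.1, mem_L_of_mul_σ_mem_L hz.2.1 hw.2.1, hz.2.2⟩, rfl⟩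
  have hfinA : FiniteDimensional k A := finite_Gam X NN δ _
  have hfinB : FiniteDimensional k (A.map (mulS (k := k) σ)) := inferInstance
  have h1 := Submodule.finrank_sup_add_finrank_inf_eq A (A.map (mulS (k := k) σ))
  have h2 : Module.finrank k ↥(A ⊓ A.map (mulS (k := k) σ)) ≤
      Module.finrank k (Gam X NN δ (b • Dinf (k := k) σ)) := by
    rw [← hmapfin (Gam X NN δ (b • Dinf (k := k) σ))]
    exact Submodule.finrank_mono hinf
  rw [hmapfin] at h1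
  symm
  refine Submodule.eq_of_le_of_finrank_le hle ?_
  have h1' : (Module.finrank k ↥(A ⊔ A.map (mulS (k := k) σ)) : ℤ) +
      Module.finrank k ↥(A ⊓ A.map (mulS (k := k) σ)) =
      Module.finrank k A + Module.finrank k A := by exact_mod_cast h1
  have h2' : (Module.finrank k ↥(A ⊓ A.map (mulS (k := k) σ)) : ℤ) ≤
      Module.finrank k (Gam X NN δ (b • Dinf (k := k) σ)) := by exact_mod_cast h2
  have : (Module.finrank k (Gam X NN δ ((b + 1 + 1) • Dinf (k := k) σ)) : ℤ) ≤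
      Module.finrank k ↥(A ⊔ A.map (mulS (k := k) σ)) := by
    push_cast at e1 e2
    linarith
  exact_mod_cast this

end Fermat.Agent.DR.Nodal
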