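import Mathlib

/-!
# DR/Abs/Nodal, leaf RE: the Rees-module argument, in elementary form (Mathlib only)
-/

set_option autoImplicit false

namespace Fermat.Agent.DR.Nodal

/-- `H a ⊆ G a` two filtrations of `V`, `S` an endomorphism of degree one, `G` generated in degree
`a₃` by `1` and `S`; every element of `G a` is moved into `H` by a power of the inclusion and by a
power of `S`.  Then `H a = G a` for `a` large.

Proof.  `G a₃` is finite dimensional: there is one `n` with `z ∈ H (a₃ + n)` and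
`S ^ n z ∈ H (a₃ + n)` for all `z ∈ G a₃` (take the max over a finite spanning set; both properties
are stable under `n ↦ n + 1` by `hH`, `hSH`).  By induction `G (a₃ + N) = ∑_{i ≤ N} S ^ i (G a₃)`, i.e.
every element of `G (a₃ + N)` is a sum of `S ^ i z_i`, `z_i ∈ G a₃`, `i ≤ N`.  For `N ≥ 2 n`:
`i ≥ n`: `S ^ i z = S ^ (i - n) (S ^ n z) ∈ H (a₃ + i) ⊆ H (a₃ + N)`;
`i < n`: `S ^ i z ∈ H (a₃ + n + i) ⊆ H (a₃ + N)`. -/
theorem rees {k V : Type*} [Field k] [AddCommGroup V] [Module k V] (S : V →ₗ[k] V)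
    (G H : ℕ → Submodule k V) (hHG : ∀ a, H a ≤ G a) (hH : Monotone H)
    (hSH : ∀ a, (H a).map S ≤ H (a + 1)) (hfin : ∀ a, Module.Finite k (G a))
    (a₃ : ℕ) (hG : ∀ a, a₃ ≤ a → G (a + 1) = G a ⊔ (G a).map S)
    (h1 : ∀ a, ∀ z ∈ G a, ∃ n, z ∈ H (a + n))
    (h2 : ∀ a, ∀ z ∈ G a, ∃ n, (S ^ n) z ∈ H (a + n)) :
    ∃ a₁, ∀ a, a₁ ≤ a → H a = G a := by
  classical
  -- powers of `S` raise the degree
  have hA : ∀ j a, (H a).map (S ^ j) ≤ H (a + j) := by
    intro j
    induction j with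
    | zero =>
      intro a
      rw [pow_zero, Module.End.one_eq_id, Submodule.map_id]
      exact le_rfl
    | succ j ih =>
      intro a
      rw [pow_succ', Module.End.mul_eq_comp, Submodule.map_comp]
      exact (Submodule.map_mono (ih a)).trans (hSH (a + j))
  have up1 : ∀ (z : V) (m m' : ℕ), m ≤ m' → z ∈ H (a₃ + m) → z ∈ H (a₃ + m') :=
    fun z m m' hm hz => hH (Nat.add_le_add_left hm a₃) hz
  have up2 : ∀ (z : V) (m m' : ℕ), m ≤ m' → (S ^ m) z ∈ H (a₃ + m) →
      (S ^ m') z ∈ H (a₃ + m') := by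
    intro z m m' hm hz
    obtain ⟨d, rfl⟩ := Nat.exists_eq_add_of_le hm
    have h := hA d (a₃ + m) (Submodule.mem_map_of_mem hz)
    rw [← Module.End.mul_apply, ← pow_add, add_comm d m, add_assoc] at h
    exact h
  -- a uniform `n`
  obtain ⟨n, hn⟩ : ∃ n, ∀ z ∈ G a₃, z ∈ H (a₃ + n) ∧ (S ^ n) z ∈ H (a₃ + n) := by
    obtain ⟨s, hs⟩ := Module.Finite.iff_fg.1 (hfin a₃)
    have key : ∀ t : Finset V, (∀ z ∈ t, z ∈ G a₃) →
        ∃ n, ∀ z ∈ t, z ∈ H (a₃ + n) ∧ (S ^ n) z ∈ H (a₃ + n) := by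
      intro t
      induction t using Finset.induction_on with
      | empty => intro _; exact ⟨0, by simp⟩
      | insert x t hx ih =>
        intro ht
        obtain ⟨n, hn⟩ := ih (fun z hz => ht z (Finset.mem_insert_of_mem hz))
        obtain ⟨n1, h1'⟩ := h1 a₃ x (ht x (Finset.mem_insert_self _ _))
        obtain ⟨n2, h2'⟩ := h2 a₃ x (ht x (Finset.mem_insert_self _ _))
        refine ⟨n + n1 + n2, fun z hz => ?_⟩
        rcases Finset.mem_insert.1 hz with rfl | hz
        · exact ⟨up1 _ n1 _ (by omega) h1', up2 _ n2 _ (by omega) h2'⟩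
        · exact ⟨up1 _ n _ (by omega) (hn z hz).1, up2 _ n _ (by omega) (hn z hz).2⟩
    obtain ⟨n, hn⟩ := key s (fun z hz => hs ▸ Submodule.subset_span hz)
    refine ⟨n, ?_⟩
    have hle : G a₃ ≤ H (a₃ + n) ⊓ (H (a₃ + n)).comap (S ^ n) := by
      rw [← hs, Submodule.span_le]
      intro z hz
      exact ⟨(hn z hz).1, (hn z hz).2⟩
    intro z hz
    exact ⟨(hle hz).1, (hle hz).2⟩
  -- `G (a₃ + N)` is spanned by the `S ^ i (G a₃)`, `i ≤ N`
  have hT : ∀ N, G (a₃ + N) ≤ ⨆ i ∈ Finset.range (N + 1), (G a₃).map (S ^ i) := by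
    intro N
    induction N with
    | zero =>
      refine le_iSup₂_of_le 0 (by simp) ?_
      rw [pow_zero, Module.End.one_eq_id, Submodule.map_id]
      exact le_rfl
    | succ N ih =>
      rw [← add_assoc, hG (a₃ + N) (Nat.le_add_right _ _)]
      refine sup_le ?_ ?_
      · refine ih.trans (iSup₂_le fun i hi => ?_)
        exact le_iSup₂_of_le i (Finset.mem_range.2 (by have := Finset.mem_range.1 hi; omega)) le_rfl
      · refine (Submodule.map_mono ih).trans ?_
        rw [Submodule.map_iSup]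
        refine iSup_le fun i => ?_
        rw [Submodule.map_iSup]
        refine iSup_le fun hi => ?_
        rw [← Submodule.map_comp, ← Module.End.mul_eq_comp, ← pow_succ']
        exact le_iSup₂_of_le (i + 1)
          (Finset.mem_range.2 (by have := Finset.mem_range.1 hi; omega)) le_rfl
  refine ⟨a₃ + 2 * n, fun a ha => le_antisymm (hHG a) ?_⟩
  obtain ⟨N, rfl⟩ := Nat.exists_eq_add_of_le (show a₃ ≤ a by omega)
  have hN : 2 * n ≤ N := by omega
  refine (hT N).trans (iSup₂_le fun i hi => ?_)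
  have hi' : i ≤ N := by have := Finset.mem_range.1 hi; omega
  rintro _ ⟨z, hz, rfl⟩
  by_cases hin : n ≤ i
  · exact up1 _ i N hi' (up2 z n i hin (hn z hz).2)
  · have h := hA i (a₃ + n) (Submodule.mem_map_of_mem (hn z hz).1)
    rw [add_assoc] at h
    exact up1 _ (n + i) N (by omega) h

end Fermat.Agent.DR.Nodal
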