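import Fermat.Agent.DR.Abs.Nodal.Charts
import Fermat.Agent.DR.Abs.Nodal.Pencil
import Fermat.Agent.DR.Abs.Nodal.Rees

/-!
# DR/Abs/Nodal: the special fibre is nodal and there is no pole drop (steps (2) + (3))
-/

set_option autoImplicit false

noncomputable section

namespace Fermat.Agent.DR.Nodal

open AlgebraicCurve Fermat.Agent.Lib.RR Fermat.Agent.Lib.PlaceEval Fermat.Agent.GAL.RED

variable {k Fb : Type*} [Field k] [Field Fb] [Algebra k Fb] [IsFF k Fb] [IsAlgClosed k]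
variable {X : Frob k Fb} {σ : Fb} (𝓗 : Filt X σ)

/-- **(N1)** `H a = Γ(a)` for `a` large. -/
theorem Filt.eq_Gam : ∃ a₁ : ℕ, ∀ a, a₁ ≤ a → 𝓗.H a = Gam X 𝓗.nodes 1 (a • Dinf (k := k) σ) := by
  obtain ⟨a₃, h₃⟩ := Gam_succ X σ 𝓗.pole 𝓗.nodes 𝓗.finite_nodes 1 (fun _ _ => one_ne_zero)
    (fun P hP => 𝓗.reg_nodes hP) (fun P hP => 𝓗.ev_σ_nodes hP)
  exact rees (mulS σ) (fun a => Gam X 𝓗.nodes 1 (a • Dinf (k := k) σ)) 𝓗.H 𝓗.H_le_Gam 𝓗.mono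
    𝓗.map_mulS_H_le (fun a => inferInstance) a₃ h₃ (fun a z hz => 𝓗.exists_mem_H hz)
    (fun a z hz => 𝓗.exists_pow_mem_H hz)

theorem Filt.Dinf_nodes (a : ℕ) {P : Place k Fb} (hP : P ∈ 𝓗.nodes) :
    (a • Dinf (k := k) σ) P = 0 ∧ (a • Dinf (k := k) σ) (X.Φ P) = 0 := by
  obtain ⟨h1, h2⟩ := 𝓗.reg_nodes hP
  simp [Dinf_apply_of_nonneg h1, Dinf_apply_of_nonneg h2]

/-- for `a` large the degree hypothesis of `finrank_Gam` holds. -/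
theorem Filt.exists_degree_lt (𝓗 : Filt X σ) (c : ℤ) :
    ∃ a₀ : ℕ, ∀ a : ℕ, a₀ ≤ a → c < Divisor.degree (a • Dinf (k := k) σ) := by
  have hpos := degree_Dinf_pos 𝓗.pole
  refine ⟨(c + 1).toNat, fun a ha => ?_⟩
  rw [map_nsmul, nsmul_eq_mul]
  have h1 : c + 1 ≤ a := by
    have := Int.self_le_toNat (c + 1)
    omega
  nlinarith

/-- **the number of nodes** is `g - 2 g' + 1`. -/
theorem Filt.ncard_nodes : (𝓗.nodes.ncard : ℤ) = 𝓗.g - 2 * genusFF k Fb + 1 := by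
  obtain ⟨a₁, h₁⟩ := 𝓗.eq_Gam
  obtain ⟨a₀, h₀⟩ := 𝓗.dim
  obtain ⟨a₂, h₂⟩ := 𝓗.exists_degree_lt (2 * (genusFF k Fb : ℤ) - 2 + 𝓗.nodes.ncard)
  let a := max a₁ (max a₀ a₂)
  have e1 := h₀ a (le_trans (le_max_left _ _) (le_max_right _ _))
  have e2 := finrank_Gam X 𝓗.nodes 𝓗.finite_nodes 1 (fun _ _ => one_ne_zero)
    (a • Dinf (k := k) σ) (fun P hP => 𝓗.Dinf_nodes a hP)
    (h₂ a (le_trans (le_max_right _ _) (le_max_right _ _)))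
  rw [← h₁ a (le_max_left _ _), e1, map_nsmul, nsmul_eq_mul] at e2
  linarith

end Fermat.Agent.DR.Nodal
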