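import Fermat.Agent.DR.Abs.Nodal.Connected
import Fermat.Agent.DR.Abs.PoleBound
import Fermat.Agent.DR.Abs.Cartesian
import Fermat.Agent.DR.Conc.Level
import Fermat.Agent.DR.Conc.Coord

/-!
# DR/Abs/Nodal: `PairHyp` from "old functions" (abstract form of DR/Conc for the coordinate v2)

`F' / K` = level `M`, `F / K` = level `M q`, `α β : F' → F` the two degeneracy maps, `W` the Atkin-Lehner
involution, `T = (R 0, R 1 = R 0 ∘ W)`, `RM` the (good) reduction of `F'`, all with residue field `Fb`.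
`ξ ∈ F'` with reduction `ξb`; coordinate `x = α ξ * β ξ`, `σ = ξb ^ (q + 1)`.
-/

set_option autoImplicit false

noncomputable section

namespace Fermat.Agent.DR.Nodal

open AlgebraicCurve Fermat.Agent.Lib.RR Fermat.Agent.Lib.PlaceEval Fermat.Agent.GAL.RED
open Fermat.Agent.DR.Abs (MultiRed)

/-- The abstract data of DR/Conc. -/
structure OldPair (K F F' k Fb : Type*) [Field K] [Field F] [Algebra K F] [Field F'] [Algebra K F']
    [Field k] [Field Fb] [Algebra k Fb] where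
  /-- the pair of reductions of `F` -/
  T : MultiRed K F k (fun _ : Fin 2 => Fb)
  /-- the reduction of `F'` -/
  RM : RedData K F' k Fb
  /-- first degeneracy map -/
  α : F' →ₐ[K] F
  /-- second degeneracy map -/
  β : F' →ₐ[K] F
  /-- the involution -/
  W : F ≃ₐ[K] F
  /-- the relative Frobenius -/
  X : Frob k Fb
  α_integral : α.toRingHom.IsIntegral
  W_α : ∀ u, W (α u) = β u
  W_W : ∀ y, W (W y) = y
  mem_W : ∀ y, y ∈ (T.R 1).O ↔ W y ∈ (T.R 0).O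
  red_W : ∀ y, (T.R 1).red y = (T.R 0).red (W y)
  α_mem : ∀ u ∈ RM.O, α u ∈ (T.R 0).O
  β_mem : ∀ u ∈ RM.O, β u ∈ (T.R 0).O
  red_α : ∀ u ∈ RM.O, (T.R 0).red (α u) = RM.red u
  red_β : ∀ u ∈ RM.O, (T.R 0).red (β u) = X.Φs (RM.red u)
  sep : T.Sep
  cartM : RM.IsCartesian

variable {K F F' k Fb : Type*} [Field K] [Field F] [Algebra K F] [Field F'] [Algebra K F']
  [Field k] [Field Fb] [Algebra k Fb]
variable [IsFF K F] [IsFF K F'] [IsAlgClosed K] [IsFF k Fb] [IsAlgClosed k]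

/-- The hypotheses on the function `ξ` of level `M`. -/
structure OldPair.Coord (Y : OldPair K F F' k Fb) (ξ : F') (ξb : Fb) : Prop where
  genus : genusFF K F' = genusFF k Fb
  red_ξ : Y.RM.red ξ = ξb
  pole : ∃ P : Place k Fb, P.ord ξb < 0
  Φs_ξb : Y.X.Φs ξb = ξb ^ Y.X.q
  fix_unit : ∀ P : Place k Fb, Y.X.Φ (Y.X.Φ P) = P → P.ord ξb = 0
  /-- level `M`: `deg (ξ)_∞ = deg (ξb)_∞` -/
  degM : Divisor.degree (poleDiv (K := K) ξ) = Divisor.degree (poleDiv (K := k) ξb)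
  /-- level `M q`: `deg (α ξ)_∞ ≤ (q + 1) deg (ξb)_∞` -/
  degN : Divisor.degree (poleDiv (K := K) (Y.α ξ))
    ≤ (Y.X.q + 1) * Divisor.degree (poleDiv (K := k) ξb)

namespace OldPair

variable (Y : OldPair K F F' k Fb) {ξ : F'} {ξb : Fb}

/-- the coordinate -/
def x (ξ : F') : F := Y.α ξ * Y.β ξ

theorem W_β (u : F') : Y.W (Y.β u) = Y.α u := by rw [← Y.W_α, Y.W_W]

theorem W_x (ξ : F') : Y.W (Y.x ξ) = Y.x ξ := by
  rw [x, map_mul, Y.W_α, Y.W_β, mul_comm]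

variable {Y} (h : Y.Coord ξ ξb)

include h

theorem Coord.ξb_ne_zero : ξb ≠ 0 := by
  obtain ⟨P, hP⟩ := h.pole
  rintro rfl
  simp at hP

theorem Coord.ξ_mem : ξ ∈ Y.RM.O :=
  Y.RM.mem_of_red_ne_zero (by rw [h.red_ξ]; exact h.ξb_ne_zero)

/-- `red_i x = ξb * Φ^* ξb = ξb ^ (q + 1)` (`red_α`, `red_β`, `red_mul`; `i = 1` by `red_W`, `W_x`). -/
theorem Coord.red_x (i : Fin 2) : (Y.T.R i).red (Y.x ξ) = ξb ^ (Y.X.q + 1) := by
  have h0 : (Y.T.R 0).red (Y.x ξ) = ξb ^ (Y.X.q + 1) := by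
    rw [x, (Y.T.R 0).red_mul (Y.α_mem _ h.ξ_mem) (Y.β_mem _ h.ξ_mem), Y.red_α _ h.ξ_mem,
      Y.red_β _ h.ξ_mem, h.red_ξ, h.Φs_ξb, pow_succ']
  fin_cases i
  · exact h0
  · show (Y.T.R 1).red (Y.x ξ) = _
    rw [Y.red_W, Y.W_x]
    exact h0

/-- the same hypotheses hold for `ξ⁻¹` (`RedData.red_inv`-type lemma in `GAL/RED`,
`Conc.Level_degree_poleDiv_inv`; `ξb⁻¹` has a pole because `ξb` has a zero:
`deg (divOf ξb) = 0`). -/
theorem Coord.inv : Y.Coord ξ⁻¹ ξb⁻¹ where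
  genus := h.genus
  red_ξ := by rw [RedData.red_inv, h.red_ξ]
  pole := by
    by_contra hcon
    push Not at hcon
    obtain ⟨c, hc⟩ := mem_range_of_ord_nonneg hcon
    obtain ⟨P, hP⟩ := h.pole
    have h1 : P.ord ξb⁻¹ = 0 := by rw [← hc, ord_algebraMap]
    rw [P.ord_inv] at h1
    omega
  Φs_ξb := by rw [map_inv₀, h.Φs_ξb, inv_pow]
  fix_unit := fun P hP => by rw [P.ord_inv, h.fix_unit P hP, neg_zero]
  degM := by
    rw [Fermat.Agent.DR.Conc.Level_degree_poleDiv_inv,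
      Fermat.Agent.DR.Conc.Level_degree_poleDiv_inv]
    exact h.degM
  degN := by
    rw [map_inv₀, Fermat.Agent.DR.Conc.Level_degree_poleDiv_inv,
      Fermat.Agent.DR.Conc.Level_degree_poleDiv_inv]
    exact h.degN

/-- auxiliary: the reductions of `x` are not constant (same as `σ_notMem_range` below). -/
theorem Coord.V1_notMem_range (i : Fin 2) :
    (Y.T.R i).red (Y.x ξ) ∉ Set.range (algebraMap k Fb) := by
  rw [h.red_x i]
  rintro ⟨c, hc⟩
  obtain ⟨P, hP⟩ := h.pole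
  have h1 : P.ord (ξb ^ (Y.X.q + 1)) < 0 := by
    rw [ord_pow]
    have : (0 : ℤ) < ((Y.X.q + 1 : ℕ) : ℤ) := by positivity
    nlinarith
  rw [← hc, ord_algebraMap] at h1
  exact lt_irrefl _ h1

theorem Coord.V1_ξ_ne_zero : ξ ≠ 0 :=
  Y.RM.ne_zero_of_red_ne_zero (by rw [h.red_ξ]; exact h.ξb_ne_zero)

/-- auxiliary: `(x)_∞ ≤ (α ξ)_∞ + (β ξ)_∞`. -/
theorem Coord.V1_poleDiv_le : poleDiv (K := K) (Y.x ξ) ≤
    poleDiv (K := K) (Y.α ξ) + poleDiv (K := K) (Y.β ξ) := by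
  intro P
  have hα : Y.α ξ ≠ 0 := (map_ne_zero Y.α).2 h.V1_ξ_ne_zero
  have hβ : Y.β ξ ≠ 0 := (map_ne_zero Y.β).2 h.V1_ξ_ne_zero
  rw [Finsupp.add_apply, poleDiv_apply, poleDiv_apply, poleDiv_apply, OldPair.x,
    P.ord_mul hα hβ]
  have h1 := le_max_left (-P.ord (Y.α ξ)) 0
  have h2 := le_max_right (-P.ord (Y.α ξ)) 0
  have h3 := le_max_left (-P.ord (Y.β ξ)) 0
  have h4 := le_max_right (-P.ord (Y.β ξ)) 0
  exact max_le (by omega) (by omega)

/-- auxiliary: `deg (β ξ)_∞ = deg (α ξ)_∞`. -/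
theorem Coord.V1_degree_β : Divisor.degree (poleDiv (K := K) (Y.β ξ)) =
    Divisor.degree (poleDiv (K := K) (Y.α ξ)) := by
  rw [← Y.W_α, Conc.Coord_poleDiv_algEquiv, SemilinearAut.degree_smul]

/-- auxiliary: `deg (σ)_∞ = (q + 1) deg (ξb)_∞`. -/
theorem Coord.V1_degree_σ : Divisor.degree (poleDiv (K := k) (ξb ^ (Y.X.q + 1))) =
    (Y.X.q + 1) * Divisor.degree (poleDiv (K := k) ξb) := by
  rw [Conc.Coord_poleDiv_pow, map_nsmul, nsmul_eq_mul]
  push_cast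
  ring

/-- **(V1)** degrees.  `(x)_∞ ≤ (α ξ)_∞ + (β ξ)_∞` (place by place), `(β ξ)_∞ = W • (α ξ)_∞` has the degree of
`(α ξ)_∞` (`Conc.Coord_poleDiv_algEquiv`; the action on divisors preserves the degree), so
`deg (x)_∞ ≤ 2 (q + 1) deg (ξb)_∞ = 2 deg (σ)_∞` (`Conc.Coord_poleDiv_pow`); the converse inequality
is `MultiRed.sum_degree_poleDiv_red_le` (`Fin.sum_univ_two`, `red_x`). -/
theorem Coord.degree_x : Divisor.degree (poleDiv (K := K) (Y.x ξ))
    = 2 * Divisor.degree (poleDiv (K := k) (ξb ^ (Y.X.q + 1))) := by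
  apply le_antisymm
  · have h1 := degree_mono h.V1_poleDiv_le
    rw [map_add, h.V1_degree_β] at h1
    have h2 := h.degN
    rw [h.V1_degree_σ]
    linarith
  · have h1 := Y.T.sum_degree_poleDiv_red_le Y.sep (Y.x ξ) h.V1_notMem_range
    rw [Fin.sum_univ_two, h.red_x, h.red_x] at h1
    linarith

/-- **(V1')** hence `(x)_∞ = (α ξ)_∞ + (β ξ)_∞` (`eq_zero_of_nonneg_of_degree`), in particular every pole
of `α ξ` is a pole of `x`. -/
theorem Coord.pole_x_of_pole_α {P : Place K F} (hP : P.ord (Y.α ξ) < 0) : P.ord (Y.x ξ) < 0 := by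
  have hnn : 0 ≤ poleDiv (K := K) (Y.α ξ) + poleDiv (K := K) (Y.β ξ) - poleDiv (K := K) (Y.x ξ) :=
    sub_nonneg.2 h.V1_poleDiv_le
  have hdeg : Divisor.degree (poleDiv (K := K) (Y.α ξ) + poleDiv (K := K) (Y.β ξ) -
      poleDiv (K := K) (Y.x ξ)) = 0 := by
    have h0 := degree_nonneg hnn
    have h2 := h.degN
    rw [map_sub, map_add, h.V1_degree_β, h.degree_x, h.V1_degree_σ] at h0 ⊢
    linarith
  have hz := DFunLike.congr_fun (eq_zero_of_nonneg_of_degree hnn hdeg) P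
  rw [Finsupp.sub_apply, Finsupp.add_apply, poleDiv_apply, poleDiv_apply, poleDiv_apply,
    Finsupp.coe_zero, Pi.zero_apply] at hz
  have h1 := le_max_left (-P.ord (Y.α ξ)) 0
  have h4 := le_max_right (-P.ord (Y.β ξ)) 0
  by_contra hcon
  rw [max_eq_right (by omega : -P.ord (Y.x ξ) ≤ 0)] at hz
  omega

/-- **(V2)** `W` preserves `L(a (x)_∞)` (`W x = x`; `Conc.Coord_poleDiv_algEquiv`, or directly
`SemilinearAut.ord_smul` for `SemilinearAut.ofAlgAut W` as in `Conc.Coord_algEquiv_mem_regOff`). -/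
theorem Coord.W_mem_L {a : ℕ} {y : F} (hy : y ∈ riemannRochSpace (a • poleDiv (K := K) (Y.x ξ))) :
    Y.W y ∈ riemannRochSpace (a • poleDiv (K := K) (Y.x ξ)) := by
  rw [mem_riemannRochSpace_iff] at hy ⊢
  intro P
  have h1 := SemilinearAut.ord_smul (SemilinearAut.ofAlgAut Y.W)
    ((SemilinearAut.ofAlgAut Y.W)⁻¹ • P) y
  rw [smul_inv_smul] at h1
  have h1' : P.ord (Y.W y) = ((SemilinearAut.ofAlgAut Y.W)⁻¹ • P).ord y := h1
  have h2 : poleDiv (K := K) (Y.x ξ) P =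
      poleDiv (K := K) (Y.x ξ) ((SemilinearAut.ofAlgAut Y.W)⁻¹ • P) := by
    conv_lhs => rw [← Y.W_x ξ, Conc.Coord_poleDiv_algEquiv, SemilinearAut.divisor_smul_apply]
  rcases hy ((SemilinearAut.ofAlgAut Y.W)⁻¹ • P) with h0 | h0
  · left
    rw [h0, map_zero]
  · right
    rw [Finsupp.smul_apply] at h0 ⊢
    rw [h1', h2]
    exact h0

/-- **(V3)** old functions.  `u` is regular off the poles of `σ = ξb ^ (q+1)`, i.e. of `ξb`:
`u ∈ Gal.regOff k ξb`.  `RED.exists_isRedMap Y.RM Y.cartM h.genus` gives `r`;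
`Conc.Level_map_poleDiv hr _ h.degM` gives `r_* (ξ)_∞ = (ξb)_∞`; `Conc.Level_exists_lift` gives
`ũ ∈ regOff K ξ ∩ RM.O` with reduction `u`.  `y := α ũ ∈ regOff K (α ξ)` (`Conc.Coord_map_mem_regOff`), so
`y` is regular off the poles of `x` (`pole_x_of_pole_α`), hence in `L(a (x)_∞)` for some `a`
(finitely many poles; compare `exists_mem_L_of_mem_regOut`).  `y ∈ T.O` and the reductions:
`α_mem`, `red_α`; for `i = 1`: `mem_W`, `red_W`, `W_α`, `β_mem`, `red_β`. -/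
theorem Coord.old : ∀ u ∈ regOut (polesOf (k := k) (ξb ^ (Y.X.q + 1))), ∃ (a : ℕ) (y : F),
    y ∈ riemannRochSpace (a • poleDiv (K := K) (Y.x ξ)) ∧ y ∈ Y.T.O ∧
      (Y.T.R 0).red y = u ∧ (Y.T.R 1).red y = Y.X.Φs u := by
  intro u hu
  obtain ⟨r, hr⟩ := exists_isRedMap Y.RM Y.cartM h.genus
  have hne : Y.RM.red ξ ≠ 0 := by rw [h.red_ξ]; exact h.ξb_ne_zero
  have hmap := (Conc.Level_map_poleDiv hr hne (by rw [h.red_ξ]; exact h.degM)).1
  rw [h.red_ξ] at hmap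
  have hpos : 0 < Divisor.degree (poleDiv (K := K) ξ) := by
    rw [h.degM]
    exact degree_Dinf_pos (k := k) h.pole
  have hu' : u ∈ Gal.regOff k ξb := by
    intro P hP
    apply hu P
    intro hP'
    have h1 : P.ord (ξb ^ (Y.X.q + 1)) < 0 := hP'
    rw [ord_pow] at h1
    have h0 : 0 ≤ P.ord ξb := (FrobBasic_mem_iff P).1 hP
    have h2 : (0 : ℤ) ≤ ((Y.X.q + 1 : ℕ) : ℤ) * P.ord ξb := mul_nonneg (Nat.cast_nonneg _) h0
    omega
  obtain ⟨ũ, hũreg, hũO, hũred⟩ := Conc.Level_exists_lift hr hmap hpos u hu'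
  have hy : Y.α ũ ∈ Gal.regOff K (Y.α ξ) := Conc.Coord_map_mem_regOff Y.α Y.α_integral hũreg
  have hy' : Y.α ũ ∈ regOut (polesOf (k := K) (Y.x ξ)) := by
    intro P hP
    apply hy P
    rw [FrobBasic_mem_iff]
    by_contra hcon
    exact hP (h.pole_x_of_pole_α (not_le.1 hcon))
  obtain ⟨a, ha⟩ := exists_mem_L_of_mem_regOut hy'
  refine ⟨a, Y.α ũ, ha, ?_, ?_, ?_⟩
  · intro i
    fin_cases i
    · exact Y.α_mem ũ hũO
    · show Y.α ũ ∈ (Y.T.R 1).O
      rw [Y.mem_W, Y.W_α]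
      exact Y.β_mem ũ hũO
  · rw [Y.red_α ũ hũO, hũred]
  · rw [Y.red_W, Y.W_α, Y.red_β ũ hũO, hũred]

/-- `σ` is not constant. -/
theorem Coord.σ_pole : ∃ P : Place k Fb, P.ord (ξb ^ (Y.X.q + 1)) < 0 := by
  obtain ⟨P, hP⟩ := h.pole
  refine ⟨P, ?_⟩
  rw [ord_pow]
  have : (0 : ℤ) < ((Y.X.q + 1 : ℕ) : ℤ) := by positivity
  nlinarith

theorem Coord.σ_notMem_range (i : Fin 2) :
    (Y.T.R i).red (Y.x ξ) ∉ Set.range (algebraMap k Fb) := by
  rw [h.red_x i]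
  rintro ⟨c, hc⟩
  obtain ⟨P, hP⟩ := h.σ_pole
  rw [← hc, ord_algebraMap] at hP
  exact lt_irrefl _ hP

/-- **Output**: `PairHyp` for the coordinate `x = α ξ * β ξ`. -/
theorem Coord.pairHyp : PairHyp Y.T (Y.x ξ) Y.X (ξb ^ (Y.X.q + 1)) where
  cart := MultiRed.isCartesian_of_degree_le Y.sep (Y.x ξ) h.σ_notMem_range (by
    rw [Fin.sum_univ_two, h.red_x, h.red_x, h.degree_x]
    linarith)
  sep := Y.sep
  red_x := h.red_x
  Φs_σ := by rw [map_pow, h.Φs_ξb, ← pow_mul, ← pow_mul, mul_comm]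
  pole := h.σ_pole
  fix_unit := fun P hP => by rw [ord_pow, h.fix_unit P hP, mul_zero]
  swap := by
    intro a y hy hyO
    refine ⟨Y.W y, h.W_mem_L hy, ?_, ?_, ?_⟩
    · intro i
      fin_cases i
      · exact (Y.mem_W y).1 (hyO 1)
      · show Y.W y ∈ (Y.T.R 1).O
        rw [Y.mem_W, Y.W_W]
        exact hyO 0
    · exact (Y.red_W y).symm
    · rw [Y.red_W, Y.W_W]
  bound := by
    intro a y hy hyO i
    have := MultiRed.red_mem_L_of_mem_L Y.T Y.sep (Y.x ξ) h.σ_notMem_range (by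
      rw [Fin.sum_univ_two, h.red_x, h.red_x, h.degree_x]
      ring) a y hy hyO i
    rwa [h.red_x i] at this
  degree := h.degree_x
  old := h.old
  old_inf := by
    intro u hu
    have hinv := h.inv
    have hx : Y.x ξ⁻¹ = (Y.x ξ)⁻¹ := by
      simp only [OldPair.x, map_inv₀, mul_inv]
    have hu' : u ∈ regOut (polesOf (k := k) (ξb⁻¹ ^ (Y.X.q + 1))) := by
      intro P hP
      apply hu P
      intro hP'
      apply hP
      show P.ord (ξb⁻¹ ^ (Y.X.q + 1)) < 0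
      have hP'' : 0 < P.ord (ξb ^ (Y.X.q + 1)) := hP'
      rw [inv_pow, P.ord_inv]
      omega
    obtain ⟨a, y, hy, hyO, h0, h1⟩ := hinv.old u hu'
    exact ⟨a, y, hx ▸ hy, hyO, h0, h1⟩

end OldPair

end Fermat.Agent.DR.Nodal
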